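import Fermat.Agent.Kummer.Defs

/-!
# Case II of Fermat's Last Theorem for a regular prime with `𝓞 ℚ(ζ_p)` a PID

Kummer's descent (Washington, Theorem 9.4), in the simplified situation where the ring of
integers is a principal ideal domain.
-/

set_option autoImplicit false

namespace Fermat.Agent.Kummer

open Polynomial Finset

section Abstract

variable {R : Type*} [CommRing R]

/-- The abstract hypotheses needed to run Kummer's descent in a ring `R`. -/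
structure DescentData (p : ℕ) (ζ : R) : Prop where
  prim : IsPrimitiveRoot ζ p
  pp : p.Prime
  odd : p ≠ 2
  prime : Prime (ζ - 1)
  resInt : ∀ x : R, ∃ n : ℤ, ζ - 1 ∣ x - (n : R)
  p_dvd : (p : R) ∣ (ζ - 1) ^ (p - 1)
  powInt : ∀ x : R, ∃ n : ℤ, (p : R) ∣ x ^ p - (n : R)
  kummer : ∀ u : Rˣ, (∃ n : ℤ, (p : R) ∣ (u : R) - (n : R)) → ∃ v : Rˣ, u = v ^ p
  intDvd : ∀ n : ℤ, ζ - 1 ∣ (n : R) → (p : ℤ) ∣ n

variable {p : ℕ} {ζ : R}

lemma sub_one_dvd_geom_sum_sub (ζ : R) (i : ℕ) :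
    ζ - 1 ∣ (∑ j ∈ range i, ζ ^ j) - (i : R) := by
  induction i with
  | zero => simp
  | succ i ih =>
    rw [Finset.sum_range_succ]
    have h : ζ - 1 ∣ ζ ^ i - 1 := by simpa using sub_dvd_pow_sub_pow ζ 1 i
    have := dvd_add ih h
    convert this using 1
    push_cast
    ring

variable [IsDomain R]

lemma DescentData.dvd_p (D : DescentData p ζ) : ζ - 1 ∣ (p : R) :=
  D.prim.sub_one_dvd_natCast D.pp.one_lt

/-- Some `x + ζ ^ i * y` is divisible by `(ζ - 1) ^ 2`. -/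
lemma DescentData.exists_sq_dvd (D : DescentData p ζ) {x y : R} (hxy : ζ - 1 ∣ x + y)
    (hy : ¬ ζ - 1 ∣ y) : ∃ i : ℕ, (ζ - 1) ^ 2 ∣ x + ζ ^ i * y := by
  have : Fact p.Prime := ⟨D.pp⟩
  obtain ⟨s, hs⟩ := hxy
  obtain ⟨ns, hns⟩ := D.resInt s
  obtain ⟨ny, hny⟩ := D.resInt y
  have hpny : ¬ (p : ℤ) ∣ ny := by
    intro h
    apply hy
    have h1 : ζ - 1 ∣ (ny : R) := by
      obtain ⟨k, rfl⟩ := h
      push_cast
      exact Dvd.dvd.mul_right D.dvd_p _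
    simpa using dvd_add hny h1
  have hny0 : (ny : ZMod p) ≠ 0 := by
    rwa [Ne, ZMod.intCast_zmod_eq_zero_iff_dvd]
  set i0 : ZMod p := -(ns : ZMod p) / (ny : ZMod p) with hi0
  refine ⟨i0.val, ?_⟩
  have hdvd : (p : ℤ) ∣ ns + (i0.val : ℤ) * ny := by
    rw [← ZMod.intCast_zmod_eq_zero_iff_dvd]
    push_cast
    rw [ZMod.natCast_zmod_val, hi0]
    field_simp
    ring
  have h1 : ζ - 1 ∣ ((ns + (i0.val : ℤ) * ny : ℤ) : R) := by
    obtain ⟨k, hk⟩ := hdvd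
    rw [hk]
    push_cast
    exact Dvd.dvd.mul_right D.dvd_p _
  have h2 : ζ - 1 ∣ s + (∑ j ∈ range i0.val, ζ ^ j) * y := by
    have h3 := sub_one_dvd_geom_sum_sub ζ i0.val
    have h4 : s + (∑ j ∈ range i0.val, ζ ^ j) * y =
        (s - ns) + ((∑ j ∈ range i0.val, ζ ^ j) - (i0.val : R)) * y + (i0.val : R) * (y - ny)
          + ((ns + (i0.val : ℤ) * ny : ℤ) : R) := by
      push_cast
      ring
    rw [h4]
    exact dvd_add (dvd_add (dvd_add hns (Dvd.dvd.mul_right h3 _)) (Dvd.dvd.mul_left hny _)) h1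
  obtain ⟨t, ht⟩ := h2
  refine ⟨t, ?_⟩
  have h5 : (ζ - 1) * ∑ j ∈ range i0.val, ζ ^ j = ζ ^ i0.val - 1 := mul_geom_sum _ _
  have : x + ζ ^ i0.val * y = (x + y) + (ζ ^ i0.val - 1) * y := by ring
  rw [this, hs, ← h5, pow_two, mul_assoc (ζ - 1) (ζ - 1) t, ← ht]
  ring

/-- A solution of the generalized Fermat equation `x ^ p + y ^ p = ε * (λ ^ m * z) ^ p`. -/
def DescentSol (p : ℕ) (ζ : R) (m : ℕ) : Prop :=
  ∃ (x y z : R) (ε : Rˣ), IsCoprime x y ∧ ¬ ζ - 1 ∣ z ∧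
    x ^ p + y ^ p = ε * ((ζ - 1) ^ m * z) ^ p

lemma DescentData.oddp (D : DescentData p ζ) : Odd p := D.pp.odd_of_ne_two D.odd

lemma DescentData.one_mem (D : DescentData p ζ) : (1 : R) ∈ nthRootsFinset p (1 : R) := by
  rw [mem_nthRootsFinset D.pp.pos]; simp

lemma DescentData.pow_mem (D : DescentData p ζ) (i : ℕ) :
    ζ ^ i ∈ nthRootsFinset p (1 : R) := by
  rw [mem_nthRootsFinset D.pp.pos, ← pow_mul, mul_comm, pow_mul, D.prim.pow_eq_one, one_pow]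

lemma DescentData.isUnit_zeta (D : DescentData p ζ) : IsUnit ζ :=
  D.prim.isUnit D.pp.ne_zero

/-- Normalisation of a solution: we may assume `λ ^ 2 ∣ x + y`. -/
lemma DescentData.normalize (D : DescentData p ζ) {m : ℕ} (h : DescentSol p ζ (m + 1)) :
    ∃ (x y z : R) (ε : Rˣ), IsCoprime x y ∧ ¬ ζ - 1 ∣ z ∧ ¬ ζ - 1 ∣ y ∧ (ζ - 1) ^ 2 ∣ x + y ∧
      x ^ p + y ^ p = ε * ((ζ - 1) ^ (m + 1) * z) ^ p := by
  obtain ⟨x, y, z, ε, hxy, hz, heq⟩ := h
  have hdvd : ζ - 1 ∣ x ^ p + y ^ p := by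
    rw [heq]
    apply Dvd.dvd.mul_left
    apply dvd_pow _ D.pp.ne_zero
    apply Dvd.dvd.mul_right
    exact dvd_pow_self _ (Nat.succ_ne_zero m)
  have hy : ¬ ζ - 1 ∣ y := by
    intro hy
    have h1 : ζ - 1 ∣ x ^ p := (dvd_add_left (dvd_pow hy D.pp.ne_zero)).1 hdvd
    exact D.prime.not_isUnit (hxy.isUnit_of_dvd' (D.prime.dvd_of_dvd_pow h1) hy)
  have hsum : ζ - 1 ∣ x + y := by
    rw [D.prim.pow_add_pow_eq_prod_add_mul x y D.oddp, D.prime.dvd_finsetProd_iff] at hdvd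
    obtain ⟨η, hη, h1⟩ := hdvd
    have h2 : ζ - 1 ∣ 1 - η := D.prim.sub_one_dvd_sub D.pp D.one_mem hη
    have : x + y = (x + η * y) + (1 - η) * y := by ring
    rw [this]
    exact dvd_add h1 (Dvd.dvd.mul_right h2 _)
  obtain ⟨i, hi⟩ := D.exists_sq_dvd hsum hy
  refine ⟨x, ζ ^ i * y, z, ε, ?_, hz, ?_, hi, ?_⟩
  · exact (isCoprime_mul_unit_left_right (D.isUnit_zeta.pow i) x y).2 hxy
  · rwa [(D.isUnit_zeta.pow i).dvd_mul_left]
  · rw [mul_pow, ← pow_mul, mul_comm i p, pow_mul, D.prim.pow_eq_one, one_pow, one_mul, heq]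

variable [IsPrincipalIdealRing R]

/-- The descent step. -/
lemma DescentData.descent (D : DescentData p ζ) {m : ℕ} (h : DescentSol p ζ (m + 1)) :
    m ≠ 0 ∧ DescentSol p ζ m := by
  classical
  obtain ⟨x, y, z, ε, hxy, hz, hy, hsq, heq⟩ := D.normalize h
  have hprime := D.prime
  have hpdvd := D.p_dvd
  have hass := D.prim.nthRootsFinset_pairwise_associated_sub_one_sub_of_prime D.pp
  have hsub : ∀ η ∈ nthRootsFinset p (1 : R), ζ - 1 ∣ η - 1 :=
    fun η hη => D.prim.sub_one_dvd_sub D.pp hη D.one_mem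
  have h1S := D.one_mem
  have hcard := D.prim.card_nthRootsFinset
  have hfactor := D.prim.pow_add_pow_eq_prod_add_mul x y D.oddp
  have hζS : ζ ∈ nthRootsFinset p (1 : R) := by simpa using D.pow_mem 1
  have hζ'S : ζ ^ (p - 1) ∈ nthRootsFinset p (1 : R) := D.pow_mem (p - 1)
  have hp0 : p ≠ 0 := D.pp.ne_zero
  have hζ1 : ζ ≠ 1 := D.prim.ne_one D.pp.one_lt
  have hζζ' : ζ * ζ ^ (p - 1) = 1 := by
    rw [← pow_succ', Nat.sub_add_cancel D.pp.one_le, D.prim.pow_eq_one]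
  have hζ'1 : ζ ^ (p - 1) ≠ 1 := by
    intro h; rw [h, mul_one] at hζζ'; exact hζ1 hζζ'
  have hne : ζ ≠ ζ ^ (p - 1) := by
    intro h
    have h2 : ζ ^ 2 = 1 := by rw [pow_two]; nth_rewrite 2 [h]; exact hζζ'
    have h3 := Nat.le_of_dvd (by norm_num) (D.prim.dvd_of_pow_eq_one 2 h2)
    have h4 := D.pp.two_le
    exact D.odd (by omega)
  have hunit : IsUnit (1 + ζ) := by
    have h2 : Nat.Coprime 2 p := Nat.coprime_two_left.2 D.oddp
    simpa [Finset.sum_range_succ] using D.prim.geom_sum_isUnit D.pp.two_le h2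
  have hpowInt := D.powInt
  have hkummer := D.kummer
  have hζu := D.isUnit_zeta
  generalize hl : ζ - 1 = l at *
  generalize hS : nthRootsFinset p (1 : R) = S at *
  have hl0 : l ≠ 0 := hprime.ne_zero
  have hall : ∀ η ∈ S, ∃ t, x + η * y = l * t := by
    intro η hη
    have h2 : l ∣ x + y := dvd_trans (dvd_pow_self _ two_ne_zero) hsq
    have : x + η * y = (x + y) + (η - 1) * y := by ring
    rw [this]
    exact dvd_add h2 (Dvd.dvd.mul_right (hsub η hη) _)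
  choose! t ht using hall
  have hprod : ∏ η ∈ S, t η = ε * (l ^ m * z) ^ p := by
    have h1 : ∏ η ∈ S, (x + η * y) = l ^ p * ∏ η ∈ S, t η := by
      rw [Finset.prod_congr rfl ht, Finset.prod_mul_distrib, Finset.prod_const, hcard]
    rw [← hfactor, heq] at h1
    apply mul_left_cancel₀ (pow_ne_zero p hl0)
    rw [← h1]
    ring
  have hndvd : ∀ η ∈ S, η ≠ 1 → ¬ l ∣ t η := by
    intro η hη hη1 hdvd
    obtain ⟨u, hu⟩ := hass hη h1S hη1
    obtain ⟨s, hs⟩ := hsq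
    obtain ⟨r, hr⟩ := hdvd
    apply hy
    have h1 : l * (u * y) = l * (l * (r - s)) := by
      have h3 := ht η hη
      rw [hr] at h3
      have h2 : (η - 1) * y = (x + η * y) - (x + y) := by ring
      calc l * (u * y) = (η - 1) * y := by rw [← hu]; ring
        _ = _ := by rw [h2, h3, hs]; ring
    have h3 := mul_left_cancel₀ hl0 h1
    have h4 : l ∣ u * y := ⟨_, h3⟩
    rwa [u.isUnit.dvd_mul_left] at h4
  have hcop : ∀ η₁ ∈ S, ∀ η₂ ∈ S, η₁ ≠ η₂ → IsCoprime (t η₁) (t η₂) := by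
    intro η₁ h₁ η₂ h₂ hne
    obtain ⟨u, hu⟩ := hass h₁ h₂ hne
    apply IsRelPrime.isCoprime
    intro d hd1 hd2
    have e1 : t η₁ - t η₂ = u * y := by
      apply mul_left_cancel₀ hl0
      rw [mul_sub, ← ht η₁ h₁, ← ht η₂ h₂]
      calc _ = (η₁ - η₂) * y := by ring
        _ = _ := by rw [← hu]; ring
    have e2 : η₁ * t η₂ - η₂ * t η₁ = u * x := by
      apply mul_left_cancel₀ hl0
      calc l * (η₁ * t η₂ - η₂ * t η₁) = η₁ * (l * t η₂) - η₂ * (l * t η₁) := by ring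
        _ = (η₁ - η₂) * x := by rw [← ht η₁ h₁, ← ht η₂ h₂]; ring
        _ = _ := by rw [← hu]; ring
    have hdy : d ∣ y := by
      have h5 : d ∣ u * y := e1 ▸ dvd_sub hd1 hd2
      rwa [u.isUnit.dvd_mul_left] at h5
    have hdx : d ∣ x := by
      have h5 : d ∣ u * x := e2 ▸ dvd_sub (Dvd.dvd.mul_left hd2 _) (Dvd.dvd.mul_left hd1 _)
      rwa [u.isUnit.dvd_mul_left] at h5
    exact hxy.isUnit_of_dvd' hdx hdy
  have hcopprod : ∀ η₀ ∈ S, IsCoprime (t η₀) (∏ η ∈ S.erase η₀, t η) := by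
    intro η₀ h₀
    apply IsCoprime.prod_right
    intro η hη
    exact hcop η₀ h₀ η (Finset.mem_of_mem_erase hη) (Finset.ne_of_mem_erase hη).symm
  have hpow : ∀ η₀ ∈ S, ∃ (u : Rˣ) (w : R), t η₀ = u * w ^ p := by
    intro η₀ h₀
    have h1 : Associated ((l ^ m * z) ^ p) (t η₀ * ∏ η ∈ S.erase η₀, t η) := by
      rw [Finset.mul_prod_erase S t h₀, hprod]
      exact ⟨ε, mul_comm _ _⟩
    obtain ⟨w, u, hu⟩ := exists_associated_pow_of_associated_pow_mul (hcopprod η₀ h₀) h1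
    exact ⟨u, w, by rw [← hu, mul_comm]⟩
  have hnd1 : ¬ l ∣ ∏ η ∈ S.erase 1, t η := by
    rw [hprime.dvd_finsetProd_iff]
    rintro ⟨η, hη, hd⟩
    exact hndvd η (Finset.mem_of_mem_erase hη) (Finset.ne_of_mem_erase hη) hd
  have h1prod : t 1 * ∏ η ∈ S.erase 1, t η = ε * (l ^ m * z) ^ p := by
    rw [Finset.mul_prod_erase S t h1S, hprod]
  have hlt1 : l ∣ t 1 := by
    obtain ⟨s, hs⟩ := hsq
    have h3 := ht 1 h1S
    rw [one_mul, hs, pow_two, mul_assoc] at h3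
    exact ⟨s, (mul_left_cancel₀ hl0 h3).symm⟩
  have hm : m ≠ 0 := by
    rintro rfl
    apply hz
    have h3 : l ∣ ε * (l ^ 0 * z) ^ p := h1prod ▸ Dvd.dvd.mul_right hlt1 _
    rw [pow_zero, one_mul, ε.isUnit.dvd_mul_left] at h3
    exact hprime.dvd_of_dvd_pow h3
  refine ⟨hm, ?_⟩
  have hpd : l ^ (m * p) ∣ t 1 := by
    apply hprime.pow_dvd_of_dvd_mul_right _ hnd1
    rw [h1prod]
    exact ⟨ε * z ^ p, by ring⟩
  obtain ⟨t', ht'⟩ := hpd
  have h1prod' : t' * ∏ η ∈ S.erase 1, t η = ε * z ^ p := by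
    apply mul_left_cancel₀ (pow_ne_zero (m * p) hl0)
    rw [← mul_assoc, ← ht', h1prod]
    ring
  have hcop' : IsCoprime t' (∏ η ∈ S.erase 1, t η) :=
    (hcopprod 1 h1S).of_isCoprime_of_dvd_left ⟨_, by rw [ht', mul_comm]⟩
  obtain ⟨w₀, u₀, hu₀⟩ := exists_associated_pow_of_associated_pow_mul hcop' (c := z) (k := p)
    (by rw [h1prod']; exact ⟨ε, mul_comm _ _⟩)
  have hw₀ : ¬ l ∣ w₀ := by
    intro hd
    apply hz
    have h3 : l ∣ ε * z ^ p := by
      rw [← h1prod', ← hu₀]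
      exact Dvd.dvd.mul_right (Dvd.dvd.mul_right (dvd_pow hd hp0) _) _
    rw [ε.isUnit.dvd_mul_left] at h3
    exact hprime.dvd_of_dvd_pow h3
  obtain ⟨u₁, w₁, h₁⟩ := hpow ζ hζS
  obtain ⟨u₂, w₂, h₂⟩ := hpow _ hζ'S
  have hw₂ : ¬ l ∣ w₂ := by
    intro hd
    apply hndvd _ hζ'S hζ'1
    rw [h₂]
    exact Dvd.dvd.mul_left (dvd_pow hd hp0) _
  have hcop12 : IsCoprime w₁ w₂ := by
    have h3 := hcop ζ hζS _ hζ'S hne
    rw [h₁, h₂] at h3
    have h4 := (isCoprime_mul_unit_left_left u₁.isUnit _ _).1 h3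
    have h5 := (isCoprime_mul_unit_left_right u₂.isUnit _ _).1 h4
    exact (IsCoprime.pow_iff (Nat.pos_of_ne_zero hp0) (Nat.pos_of_ne_zero hp0)).1 h5
  have key : t ζ + ζ * t (ζ ^ (p - 1)) = (1 + ζ) * t 1 := by
    apply mul_left_cancel₀ hl0
    calc l * (t ζ + ζ * t (ζ ^ (p - 1))) = l * t ζ + ζ * (l * t (ζ ^ (p - 1))) := by ring
      _ = (x + ζ * y) + ζ * (x + ζ ^ (p - 1) * y) := by rw [← ht ζ hζS, ← ht _ hζ'S]
      _ = (x + ζ * y) + (ζ * x + (ζ * ζ ^ (p - 1)) * y) := by ring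
      _ = (1 + ζ) * (x + 1 * y) := by rw [hζζ']; ring
      _ = _ := by rw [ht 1 h1S]; ring
  rw [h₁, h₂, ht', ← hu₀] at key
  obtain ⟨ζu, hζu⟩ := hζu
  obtain ⟨v, hv⟩ := hunit
  have hinv : (u₁ : R) * ((u₁⁻¹ : Rˣ) : R) = 1 := Units.mul_inv u₁
  have key2 : w₁ ^ p + ((ζu * u₂ * u₁⁻¹ : Rˣ) : R) * w₂ ^ p =
      ((v * u₀ * u₁⁻¹ : Rˣ) : R) * (l ^ m * w₀) ^ p := by
    apply mul_left_cancel₀ u₁.ne_zero
    push_cast
    rw [hζu, hv]
    linear_combination key + (ζ * u₂ * w₂ ^ p - (1 + ζ) * u₀ * (l ^ m * w₀) ^ p) * hinv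
  generalize ζu * u₂ * u₁⁻¹ = η at key2
  generalize v * u₀ * u₁⁻¹ = η' at key2
  have hp1 : (p : R) ∣ w₁ ^ p + (η : R) * w₂ ^ p := by
    rw [key2, mul_pow, ← pow_mul]
    apply Dvd.dvd.mul_left
    apply Dvd.dvd.mul_right
    apply dvd_trans hpdvd
    apply pow_dvd_pow
    have h3 : 1 ≤ m := Nat.one_le_iff_ne_zero.2 hm
    calc p - 1 ≤ p := Nat.sub_le _ _
      _ = 1 * p := (one_mul p).symm
      _ ≤ m * p := Nat.mul_le_mul_right p h3
  obtain ⟨a, b, hab⟩ : IsCoprime w₂ (l ^ (p - 1)) :=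
    ((hprime.coprime_iff_not_dvd.2 hw₂).symm).pow_right
  have hp2 : (p : R) ∣ a * w₂ - 1 := by
    have h3 : a * w₂ - 1 = - b * l ^ (p - 1) := by linear_combination hab
    rw [h3]
    exact Dvd.dvd.mul_left hpdvd _
  have hp3 : (p : R) ∣ (a * w₂) ^ p - 1 := by
    have h3 := sub_dvd_pow_sub_pow (a * w₂) 1 p
    rw [one_pow] at h3
    exact dvd_trans hp2 h3
  obtain ⟨n, hn⟩ := hpowInt (a * w₁)
  obtain ⟨η₀, hη₀⟩ := hkummer η ⟨-n, by
    have h3 : (η : R) - ((-n : ℤ) : R) = - η * ((a * w₂) ^ p - 1) +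
        a ^ p * (w₁ ^ p + (η : R) * w₂ ^ p) - ((a * w₁) ^ p - n) := by
      push_cast
      ring
    rw [h3]
    exact dvd_sub (dvd_add (Dvd.dvd.mul_left hp3 _) (Dvd.dvd.mul_left hp1 _)) hn⟩
  refine ⟨w₁, η₀ * w₂, w₀, η', ?_, hl ▸ hw₀, ?_⟩
  · exact (isCoprime_mul_unit_left_right η₀.isUnit _ _).2 hcop12
  · rw [hl, ← key2, hη₀, mul_pow]
    push_cast
    ring

/-- There is no solution to the generalized Fermat equation. -/
theorem DescentData.not_sol (D : DescentData p ζ) (m : ℕ) : ¬ DescentSol p ζ (m + 1) := by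
  induction m with
  | zero => intro h; exact (D.descent h).1 rfl
  | succ m ih => intro h; exact ih (D.descent h).2

end Abstract

section Adjoin

variable {R : Type*} [CommRing R] {ζ : R}

lemma exists_int_sub_one_dvd_sub (h : Algebra.adjoin ℤ {ζ} = ⊤) (x : R) :
    ∃ n : ℤ, ζ - 1 ∣ x - (n : R) := by
  have hx : x ∈ Algebra.adjoin ℤ {ζ} := h ▸ Algebra.mem_top
  induction hx using Algebra.adjoin_induction with
  | mem x hx =>
    rw [Set.mem_singleton_iff] at hx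
    exact ⟨1, by simp [hx]⟩
  | algebraMap r => exact ⟨r, by simp⟩
  | add x y _ _ hx hy =>
    obtain ⟨n, hn⟩ := hx
    obtain ⟨k, hk⟩ := hy
    refine ⟨n + k, ?_⟩
    have : x + y - ((n + k : ℤ) : R) = (x - n) + (y - k) := by push_cast; ring
    rw [this]
    exact dvd_add hn hk
  | mul x y _ _ hx hy =>
    obtain ⟨n, hn⟩ := hx
    obtain ⟨k, hk⟩ := hy
    refine ⟨n * k, ?_⟩
    have : x * y - ((n * k : ℤ) : R) = (x - n) * y + n * (y - k) := by push_cast; ring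
    rw [this]
    exact dvd_add (Dvd.dvd.mul_right hn _) (Dvd.dvd.mul_left hk _)

lemma exists_int_dvd_pow_sub {p : ℕ} (hp : p.Prime) (hζ : ζ ^ p = 1)
    (h : Algebra.adjoin ℤ {ζ} = ⊤) (x : R) :
    ∃ n : ℤ, (p : R) ∣ x ^ p - (n : R) := by
  have hx : x ∈ Algebra.adjoin ℤ {ζ} := h ▸ Algebra.mem_top
  induction hx using Algebra.adjoin_induction with
  | mem x hx =>
    rw [Set.mem_singleton_iff] at hx
    exact ⟨1, by simp [hx, hζ]⟩
  | algebraMap r => exact ⟨r ^ p, by simp⟩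
  | add x y _ _ hx hy =>
    obtain ⟨n, hn⟩ := hx
    obtain ⟨k, hk⟩ := hy
    obtain ⟨r, hr⟩ := exists_add_pow_prime_eq hp x y
    refine ⟨n + k, ?_⟩
    have : (x + y) ^ p - ((n + k : ℤ) : R) = (x ^ p - n) + (y ^ p - k) + p * (x * y * r) := by
      rw [hr]; push_cast; ring
    rw [this]
    exact dvd_add (dvd_add hn hk) (dvd_mul_right _ _)
  | mul x y _ _ hx hy =>
    obtain ⟨n, hn⟩ := hx
    obtain ⟨k, hk⟩ := hy
    refine ⟨n * k, ?_⟩
    have : (x * y) ^ p - ((n * k : ℤ) : R) = (x ^ p - n) * y ^ p + n * (y ^ p - k) := by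
      push_cast; ring
    rw [this]
    exact dvd_add (Dvd.dvd.mul_right hn _) (Dvd.dvd.mul_left hk _)

end Adjoin

section NumberField

open NumberField

variable {p : ℕ} [Fact p.Prime] {K : Type*} [Field K] [NumberField K]
  [IsCyclotomicExtension {p} ℚ K] {ζ : K}

lemma descentData (hp2 : p ≠ 2) (hζ : IsPrimitiveRoot ζ p) (hK : KummerLemma p K) :
    DescentData p hζ.toInteger where
  prim := hζ.toInteger_isPrimitiveRoot
  pp := Fact.out
  odd := hp2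
  prime := hζ.zeta_sub_one_prime'
  resInt := exists_int_sub_one_dvd_sub (IsCyclotomicExtension.Rat.adjoin_singleton_eq_top hζ)
  p_dvd := (IsCyclotomicExtension.Rat.associated_zeta_sub_one_pow_prime p hζ).symm.dvd
  powInt := exists_int_dvd_pow_sub Fact.out hζ.toInteger_isPrimitiveRoot.pow_eq_one
    (IsCyclotomicExtension.Rat.adjoin_singleton_eq_top hζ)
  kummer := hK
  intDvd := fun _ h => (IsCyclotomicExtension.Rat.zeta_sub_one_dvd_intCast_iff' p hζ).1 h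

theorem caseII_core (hp2 : p ≠ 2) [IsPrincipalIdealRing (𝓞 K)]
    (hζ : IsPrimitiveRoot ζ p) (hK : KummerLemma p K) (m : ℕ) (hm : 1 ≤ m)
    (x y z : 𝓞 K) (ε : (𝓞 K)ˣ) (hxy : IsCoprime x y) (hz : ¬ (hζ.toInteger - 1) ∣ z) :
    x ^ p + y ^ p ≠ ε * ((hζ.toInteger - 1) ^ m * z) ^ p := by
  intro h
  obtain ⟨k, rfl⟩ : ∃ k, m = k + 1 := ⟨m - 1, by omega⟩
  exact (descentData hp2 hζ hK).not_sol k ⟨x, y, z, ε, hxy, hz, h⟩

variable (K) in
theorem caseII_of_dvd_c (hp2 : p ≠ 2) [IsPrincipalIdealRing (𝓞 K)] (hK : KummerLemma p K)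
    (a b c : ℤ) (hab : IsCoprime a b) (hc : c ≠ 0) (hpc : (p : ℤ) ∣ c) :
    a ^ p + b ^ p ≠ c ^ p := by
  intro h
  have hζ : IsPrimitiveRoot (IsCyclotomicExtension.zeta p ℚ K) p :=
    IsCyclotomicExtension.zeta_spec p ℚ K
  have hc' : (c : 𝓞 K) ≠ 0 := by exact_mod_cast hc
  obtain ⟨m, z, hz, hcz⟩ := WfDvdMonoid.max_power_factor hc' hζ.zeta_sub_one_prime'.irreducible
  have hm : 1 ≤ m := by
    by_contra hm
    have hm0 : m = 0 := by omega
    subst hm0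
    apply hz
    rw [pow_zero, one_mul] at hcz
    rw [← hcz]
    exact (IsCyclotomicExtension.Rat.zeta_sub_one_dvd_intCast_iff' p hζ).2 hpc
  apply caseII_core hp2 hζ hK m hm a b z 1 hab.intCast hz
  rw [← hcz, Units.val_one, one_mul]
  exact_mod_cast h

lemma isCoprime_of_pow_add_pow_eq {p : ℕ} (hp : 0 < p) {a b c : ℤ} (hab : IsCoprime a b)
    (h : a ^ p + b ^ p = c ^ p) : IsCoprime c b := by
  have h1 : IsCoprime (a ^ p) b := hab.pow_left
  have h2 : a ^ p = c ^ p + b * (- b ^ (p - 1)) := by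
    have : b * b ^ (p - 1) = b ^ p := by
      rw [← pow_succ', Nat.sub_add_cancel hp]
    linear_combination h + this
  rw [h2] at h1
  exact (IsCoprime.pow_left_iff hp).1 h1.of_add_mul_left_left

theorem caseII (hp2 : p ≠ 2) [IsPrincipalIdealRing (𝓞 K)] (hK : KummerLemma p K)
    (a b c : ℤ) (hab : IsCoprime a b) (h0 : a * b * c ≠ 0) (hpabc : (p : ℤ) ∣ a * b * c) :
    a ^ p + b ^ p ≠ c ^ p := by
  intro h
  have hpp : p.Prime := Fact.out
  have hodd : Odd p := hpp.odd_of_ne_two hp2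
  have hpZ : Prime (p : ℤ) := Nat.prime_iff_prime_int.1 hpp
  have ha : a ≠ 0 := fun h => h0 (by simp [h])
  have hb : b ≠ 0 := fun h => h0 (by simp [h])
  have hc : c ≠ 0 := fun h => h0 (by simp [h])
  rcases hpZ.dvd_or_dvd hpabc with h1 | h1
  · rcases hpZ.dvd_or_dvd h1 with h1 | h1
    · -- `p ∣ a` : `c ^ p + (-b) ^ p = a ^ p`
      have hcop : IsCoprime c (-b) := (isCoprime_of_pow_add_pow_eq hpp.pos hab h).neg_right
      refine caseII_of_dvd_c K hp2 hK c (-b) a hcop ha h1 ?_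
      rw [hodd.neg_pow]
      linear_combination -h
    · -- `p ∣ b` : `c ^ p + (-a) ^ p = b ^ p`
      have hcop : IsCoprime c (-a) :=
        (isCoprime_of_pow_add_pow_eq hpp.pos hab.symm (by rw [add_comm]; exact h)).neg_right
      refine caseII_of_dvd_c K hp2 hK c (-a) b hcop hb h1 ?_
      rw [hodd.neg_pow]
      linear_combination -h
  · exact caseII_of_dvd_c K hp2 hK a b c hab hc h1 h

end NumberField

end Fermat.Agent.Kummer
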