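import Fermat.Agent.Kummer.Defs

/-!
# T-KUMMER, task KL2: the unit group of `ℤ[ζ_p]` is generated by `(p-1)/2` elements (Dirichlet)
-/

set_option autoImplicit false

namespace Fermat.Agent.Kummer

open NumberField NumberField.Units NumberField.InfinitePlace

theorem rank_add_one_eq {p : ℕ} [Fact p.Prime] (hp2 : p ≠ 2) {K : Type*} [Field K] [NumberField K]
    [IsCyclotomicExtension {p} ℚ K] : (p - 1) / 2 = rank K + 1 := by
  have hp : p.Prime := Fact.out
  have h2 : 2 < p := lt_of_le_of_ne hp.two_le (Ne.symm hp2)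
  haveI : NeZero p := ⟨hp.ne_zero⟩
  have h1 : Fintype.card (InfinitePlace K) = (p - 1) / 2 := by
    rw [card_eq_nrRealPlaces_add_nrComplexPlaces,
      IsCyclotomicExtension.Rat.nrRealPlaces_eq_zero K h2,
      IsCyclotomicExtension.Rat.nrComplexPlaces_eq_totient_div_two p K, Nat.totient_prime hp,
      zero_add]
  have h3 : 0 < Fintype.card (InfinitePlace K) := Fintype.card_pos
  rw [rank, ← h1]
  omega

theorem units_generated {p : ℕ} [Fact p.Prime] (hp2 : p ≠ 2) {K : Type*} [Field K] [NumberField K]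
    [IsCyclotomicExtension {p} ℚ K] :
    ∃ g : Fin ((p - 1) / 2) → (𝓞 K)ˣ, ∀ u : (𝓞 K)ˣ, ∃ e : Fin ((p - 1) / 2) → ℤ,
      u = ∏ i, g i ^ e i := by
  rw [rank_add_one_eq (K := K) hp2]
  obtain ⟨t, ht⟩ := IsCyclic.exists_generator (α := torsion K)
  refine ⟨Fin.cons (t : (𝓞 K)ˣ) (fundSystem K), fun u => ?_⟩
  obtain ⟨⟨z, e⟩, hze, -⟩ := exist_unique_eq_mul_prod K u
  obtain ⟨k, hk⟩ := Subgroup.mem_zpowers_iff.mp (ht z)
  refine ⟨Fin.cons k e, ?_⟩
  rw [Fin.prod_univ_succ]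
  simp only [Fin.cons_zero, Fin.cons_succ]
  rw [hze]
  congr 1
  rw [← hk]
  simp

end Fermat.Agent.Kummer
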