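import Fermat.Agent.Kummer.KummerAbstract
import Fermat.Agent.Kummer.UnitsGenerated

/-!
# T-KUMMER, task KL3: logarithmic derivative on the units of `ℤ[ζ_p]` and Kummer's lemma from a
certificate.

The logarithmic derivative is obtained from the ring homomorphism
`𝓞 K → (𝔽_p[X]/(X^(p-2)))[ε]`, `ζ ↦ 1 + X + ε`.
-/

set_option autoImplicit false

namespace Fermat.Agent.Kummer

open NumberField Polynomial

section DualNumberLog

variable {R : Type*} [CommRing R]

/-- logarithmic derivative on units of dual numbers. -/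
noncomputable def dualLog : (DualNumber R)ˣ →* Multiplicative R where
  toFun v := Multiplicative.ofAdd (TrivSqZeroExt.snd (v : DualNumber R) *
    TrivSqZeroExt.fst ((v⁻¹ : (DualNumber R)ˣ) : DualNumber R))
  map_one' := by simp
  map_mul' v w := by
    have hv : TrivSqZeroExt.fst (v : DualNumber R) *
        TrivSqZeroExt.fst ((v⁻¹ : (DualNumber R)ˣ) : DualNumber R) = 1 := by
      rw [← TrivSqZeroExt.fst_mul, Units.mul_inv, TrivSqZeroExt.fst_one]
    have hw : TrivSqZeroExt.fst (w : DualNumber R) *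
        TrivSqZeroExt.fst ((w⁻¹ : (DualNumber R)ˣ) : DualNumber R) = 1 := by
      rw [← TrivSqZeroExt.fst_mul, Units.mul_inv, TrivSqZeroExt.fst_one]
    rw [← ofAdd_add]
    congr 1
    rw [mul_inv_rev, Units.val_mul, Units.val_mul, TrivSqZeroExt.snd_mul, TrivSqZeroExt.fst_mul]
    simp only [smul_eq_mul, MulOpposite.smul_eq_mul_unop, MulOpposite.unop_op]
    linear_combination
      (TrivSqZeroExt.snd (w : DualNumber R) *
        TrivSqZeroExt.fst ((w⁻¹ : (DualNumber R)ˣ) : DualNumber R)) * hv +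
      (TrivSqZeroExt.snd (v : DualNumber R) *
        TrivSqZeroExt.fst ((v⁻¹ : (DualNumber R)ˣ) : DualNumber R)) * hw

theorem dualLog_eq_of_mul_eq (v : (DualNumber R)ˣ) (w : R)
    (h : w * TrivSqZeroExt.fst (v : DualNumber R) = TrivSqZeroExt.snd (v : DualNumber R)) :
    Multiplicative.toAdd (dualLog v) = w := by
  have hv : TrivSqZeroExt.fst (v : DualNumber R) *
      TrivSqZeroExt.fst ((v⁻¹ : (DualNumber R)ˣ) : DualNumber R) = 1 := by
    rw [← TrivSqZeroExt.fst_mul, Units.mul_inv, TrivSqZeroExt.fst_one]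
  change TrivSqZeroExt.snd (v : DualNumber R) *
    TrivSqZeroExt.fst ((v⁻¹ : (DualNumber R)ˣ) : DualNumber R) = w
  rw [← h]
  linear_combination w * hv

end DualNumberLog

section Psi

theorem exists_cyclotomic_eq (p : ℕ) [Fact p.Prime] :
    ∃ H : ℤ[X], cyclotomic p ℤ = (X - 1) ^ (p - 1) + C (p : ℤ) * H := by
  have h1 : cyclotomic p (ZMod p) = (X - 1) ^ (p - 1) := by
    have := cyclotomic_mul_prime_eq_pow_of_not_dvd (ZMod p) (p := p) (n := 1)
      (fun h => (Nat.Prime.one_lt Fact.out).ne' (Nat.dvd_one.mp h))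
    rwa [one_mul, cyclotomic_one] at this
  have h2 : C (p : ℤ) ∣ cyclotomic p ℤ - (X - 1) ^ (p - 1) := by
    rw [C_dvd_iff_dvd_coeff]
    intro i
    rw [← ZMod.intCast_zmod_eq_zero_iff_dvd, ← eq_intCast (Int.castRingHom (ZMod p)), ← coeff_map]
    simp [h1]
  obtain ⟨H, hH⟩ := h2
  exact ⟨H, by rw [← hH]; ring⟩

variable {p : ℕ} [Fact p.Prime] {K : Type*} [Field K] [NumberField K]
    [IsCyclotomicExtension {p} ℚ K] {ζ : K}

omit [IsCyclotomicExtension {p} ℚ K] in
theorem minpoly_toInteger (hζ : IsPrimitiveRoot ζ p) :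
    minpoly ℤ hζ.toInteger = cyclotomic p ℤ := by
  rw [← RingOfIntegers.minpoly_coe, cyclotomic_eq_minpoly hζ (Nat.Prime.pos Fact.out)]
  rfl

theorem exists_ringHom_of_pow_eq_zero {S : Type*} [CommRing S] (hpS : (p : S) = 0) (y : S)
    (hy : y ^ (p - 1) = 0) (hζ : IsPrimitiveRoot ζ p) :
    ∃ Ψ : 𝓞 K →+* S, Ψ hζ.toInteger = 1 + y := by
  have key : aeval (1 + y) (minpoly ℤ hζ.integralPowerBasis.gen) = 0 := by
    rw [hζ.integralPowerBasis_gen, minpoly_toInteger hζ]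
    obtain ⟨H, hH⟩ := exists_cyclotomic_eq p
    rw [hH]
    simp [hy, hpS]
  refine ⟨(hζ.integralPowerBasis.lift (1 + y) key).toRingHom, ?_⟩
  have := hζ.integralPowerBasis.lift_gen (1 + y) key
  conv_lhs at this => rw [hζ.integralPowerBasis_gen]
  exact this

theorem eval₂_add_of_sq_eq_zero {S : Type*} [CommRing S] (G : ℤ[X]) (x y : S) (hy : y ^ 2 = 0) :
    eval₂ (Int.castRingHom S) (x + y) G =
      eval₂ (Int.castRingHom S) x G + eval₂ (Int.castRingHom S) x (derivative G) * y := by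
  have := aeval_add_of_sq_eq_zero G x y hy
  simpa [aeval_def] using this

theorem eval₂_dual {R : Type*} [CommRing R] (x : R) (G : ℤ[X]) :
    eval₂ (Int.castRingHom (DualNumber R)) (TrivSqZeroExt.inl x + DualNumber.eps) G =
      TrivSqZeroExt.inl (eval₂ (Int.castRingHom R) x G) +
      TrivSqZeroExt.inr (eval₂ (Int.castRingHom R) x (derivative G)) := by
  rw [eval₂_add_of_sq_eq_zero G _ _ (by rw [pow_two, DualNumber.eps_mul_eps])]
  have h : ∀ F : ℤ[X], eval₂ (Int.castRingHom (DualNumber R)) (TrivSqZeroExt.inl x) F =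
      TrivSqZeroExt.inl (eval₂ (Int.castRingHom R) x F) := by
    intro F
    have := hom_eval₂ F (Int.castRingHom R) (TrivSqZeroExt.inlHom R R) x
    rw [show (TrivSqZeroExt.inlHom R R).comp (Int.castRingHom R) = Int.castRingHom (DualNumber R)
      from RingHom.ext_int _ _] at this
    exact this.symm
  rw [h, h, DualNumber.eps, TrivSqZeroExt.inl_mul_inr, smul_eq_mul, mul_one]

theorem eval₂_trunc (p n : ℕ) (G : ℤ[X]) :
    eval₂ (Int.castRingHom (Trunc p n)) (Ideal.Quotient.mk _ X) G =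
      Ideal.Quotient.mk _ (G.map (Int.castRingHom (ZMod p))) := by
  have := hom_eval₂ G (C.comp (Int.castRingHom (ZMod p)))
    (Ideal.Quotient.mk (Ideal.span {(X : (ZMod p)[X]) ^ n})) X
  rw [show (Ideal.Quotient.mk (Ideal.span {(X : (ZMod p)[X]) ^ n})).comp
    (C.comp (Int.castRingHom (ZMod p))) = Int.castRingHom (Trunc p n)
      from RingHom.ext_int _ _] at this
  rw [← this]
  rfl

theorem natCast_trunc (p n : ℕ) : ((p : ℕ) : Trunc p n) = 0 := by
  have h1 : ((p : ℕ) : (ZMod p)[X]) = 0 := by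
    rw [← C_eq_natCast, ZMod.natCast_self, C_0]
  rw [← map_natCast (Ideal.Quotient.mk (Ideal.span {(X : (ZMod p)[X]) ^ n})), h1, map_zero]

theorem trunc_X_pow (p n : ℕ) :
    (Ideal.Quotient.mk (Ideal.span {(X : (ZMod p)[X]) ^ n}) X) ^ n = 0 := by
  rw [← map_pow, Ideal.Quotient.eq_zero_iff_mem]
  exact Ideal.mem_span_singleton_self _

theorem inl_add_eps_pow {R : Type*} [CommRing R] (x : R) (n : ℕ) (hx : x ^ n = 0) :
    (TrivSqZeroExt.inl x + DualNumber.eps : DualNumber R) ^ (n + 1) = 0 := by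
  have h := eval₂_dual x (X ^ (n + 1))
  rw [eval₂_pow, eval₂_X] at h
  rw [h, derivative_X_pow, eval₂_pow, eval₂_X, eval₂_mul, eval₂_pow, eval₂_X,
    add_tsub_cancel_right, hx, pow_succ, hx]
  simp

theorem exists_dlog_aux {R : Type*} [CommRing R] (hpR : ((p : ℕ) : R) = 0) (x : R)
    (hx : x ^ (p - 2) = 0) (_hp2 : p ≠ 2) (hζ : IsPrimitiveRoot ζ p) :
    ∃ φ : (𝓞 K)ˣ →* Multiplicative R,
      (∀ u : (𝓞 K)ˣ, (∃ n : ℤ, (p : 𝓞 K) ∣ (u : 𝓞 K) - (n : 𝓞 K)) → φ u = 1) ∧
      (∀ (u : (𝓞 K)ˣ) (G : ℤ[X]) (w : R),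
        (u : 𝓞 K) = aeval (hζ.toInteger - 1) G →
        w * eval₂ (Int.castRingHom R) x G = eval₂ (Int.castRingHom R) x (derivative G) →
        Multiplicative.toAdd (φ u) = w) := by
  have hp3 : p - 2 + 1 = p - 1 := by
    have := (Nat.Prime.two_le (Fact.out : p.Prime))
    omega
  have hpD : ((p : ℕ) : DualNumber R) = 0 := by
    rw [← map_natCast (TrivSqZeroExt.inlHom R R), hpR, map_zero]
  obtain ⟨Ψ, hΨ⟩ := exists_ringHom_of_pow_eq_zero hpD
    (TrivSqZeroExt.inl x + DualNumber.eps : DualNumber R)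
    (by rw [← hp3]; exact inl_add_eps_pow x (p - 2) hx) hζ
  refine ⟨dualLog.comp (Units.map Ψ.toMonoidHom), ?_, ?_⟩
  · rintro u ⟨n, c, hc⟩
    have h1 : Ψ (u : 𝓞 K) = (n : DualNumber R) := by
      have : (u : 𝓞 K) = n + p * c := by rw [← hc]; ring
      rw [this, map_add, map_mul, map_natCast, hpD, zero_mul, add_zero, map_intCast]
    have h2 := dualLog_eq_of_mul_eq (Units.map Ψ.toMonoidHom u) 0 (by
      rw [zero_mul]
      change 0 = TrivSqZeroExt.snd (Ψ (u : 𝓞 K))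
      rw [h1]
      simp)
    exact h2
  · intro u G w hu hw
    apply dualLog_eq_of_mul_eq
    change _ * TrivSqZeroExt.fst (Ψ (u : 𝓞 K)) = TrivSqZeroExt.snd (Ψ (u : 𝓞 K))
    have h1 : Ψ (u : 𝓞 K) = TrivSqZeroExt.inl (eval₂ (Int.castRingHom R) x G)
        + TrivSqZeroExt.inr (eval₂ (Int.castRingHom R) x (derivative G)) := by
      rw [hu, aeval_def, hom_eval₂, map_sub, hΨ, map_one, add_sub_cancel_left,
        show Ψ.comp (algebraMap ℤ (𝓞 K)) = Int.castRingHom _ from RingHom.ext_int _ _,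
        eval₂_dual]
    rw [h1]
    simp only [TrivSqZeroExt.fst_add, TrivSqZeroExt.fst_inl, TrivSqZeroExt.fst_inr, add_zero,
      TrivSqZeroExt.snd_add, TrivSqZeroExt.snd_inl, TrivSqZeroExt.snd_inr, zero_add]
    exact hw

theorem exists_dlog (hp2 : p ≠ 2) (hζ : IsPrimitiveRoot ζ p) :
    ∃ φ : (𝓞 K)ˣ →* Multiplicative (Trunc p (p - 2)),
      (∀ u : (𝓞 K)ˣ, (∃ n : ℤ, (p : 𝓞 K) ∣ (u : 𝓞 K) - (n : 𝓞 K)) → φ u = 1) ∧
      (∀ (u : (𝓞 K)ˣ) (G : ℤ[X]) (W : (ZMod p)[X]),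
        (u : 𝓞 K) = aeval (hζ.toInteger - 1) G →
        (X : (ZMod p)[X]) ^ (p - 2) ∣
          W * G.map (Int.castRingHom (ZMod p)) - derivative (G.map (Int.castRingHom (ZMod p))) →
        Multiplicative.toAdd (φ u) = Ideal.Quotient.mk _ W) := by
  obtain ⟨φ, h1, h2⟩ := exists_dlog_aux (natCast_trunc p (p - 2)) _ (trunc_X_pow p (p - 2)) hp2 hζ
  refine ⟨φ, h1, fun u G W hu hW => h2 u G _ hu ?_⟩
  rw [eval₂_trunc, eval₂_trunc, ← derivative_map, ← map_mul, Ideal.Quotient.eq,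
    Ideal.mem_span_singleton]
  exact hW

theorem linearIndependent_trunc_mk {p n m : ℕ} (W : Fin m → (ZMod p)[X])
    (hind : LinearIndependent (ZMod p) (fun i => fun j : Fin n => (W i).coeff j)) :
    LinearIndependent (ZMod p)
      (fun i => (Ideal.Quotient.mk (Ideal.span {(X : (ZMod p)[X]) ^ n}) (W i) : Trunc p n)) := by
  rw [Fintype.linearIndependent_iff] at hind ⊢
  intro c hc
  apply hind c
  have h1 : (Ideal.Quotient.mk (Ideal.span {(X : (ZMod p)[X]) ^ n}) (∑ i, c i • W i)) = 0 := by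
    rw [map_sum, ← hc]
    rfl
  rw [Ideal.Quotient.eq_zero_iff_mem, Ideal.mem_span_singleton, X_pow_dvd_iff] at h1
  funext j
  have h2 := h1 j j.2
  rw [finsetSum_coeff] at h2
  simpa using h2

theorem kummerLemma_of_cert (hp2 : p ≠ 2) (hζ : IsPrimitiveRoot ζ p)
    (G : Fin ((p - 1) / 2) → ℤ[X]) (W : Fin ((p - 1) / 2) → (ZMod p)[X])
    (hG : ∀ i, IsUnit (aeval (hζ.toInteger - 1) (G i) : 𝓞 K))
    (hW : ∀ i, (X : (ZMod p)[X]) ^ (p - 2) ∣
      W i * (G i).map (Int.castRingHom (ZMod p)) -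
        derivative ((G i).map (Int.castRingHom (ZMod p))))
    (hind : LinearIndependent (ZMod p) (fun i => fun j : Fin (p - 2) => (W i).coeff j)) :
    KummerLemma p K := by
  obtain ⟨φ, h1, h2⟩ := exists_dlog hp2 hζ
  obtain ⟨g, hg⟩ := units_generated (K := K) hp2
  intro u hu
  refine exists_pow_eq_of_map_eq_one (p := p) g hg φ (fun i => (hG i).unit) ?_ u (h1 u hu)
  have h3 : (fun i => Multiplicative.toAdd (φ ((hG i).unit))) =
      fun i => (Ideal.Quotient.mk (Ideal.span {(X : (ZMod p)[X]) ^ (p - 2)}) (W i) :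
        Trunc p (p - 2)) := by
    funext i
    exact h2 _ (G i) (W i) (hG i).unit_spec (hW i)
  rw [h3]
  exact linearIndependent_trunc_mk W hind

end Psi

end Fermat.Agent.Kummer
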