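import Mathlib

/-!
# T-KUMMER: Fermat's Last Theorem for `p = 5, 7, 11, 13`

Shared definitions of the project (namespace `Fermat.Agent.Kummer`).
-/

set_option autoImplicit false

namespace Fermat.Agent.Kummer

open NumberField Polynomial

/-- Kummer's lemma for the field `K = ℚ(ζ_p)`: a unit of `𝓞 K` which is congruent to a rational
integer modulo `p` is a `p`-th power of a unit. -/
def KummerLemma (p : ℕ) (K : Type*) [Field K] [NumberField K] : Prop :=
  ∀ u : (𝓞 K)ˣ, (∃ n : ℤ, (p : 𝓞 K) ∣ (u : 𝓞 K) - (n : 𝓞 K)) → ∃ v : (𝓞 K)ˣ, u = v ^ p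

/-- Truncated polynomial ring `𝔽_p[X]/(X^n)`. -/
abbrev Trunc (p n : ℕ) : Type := (ZMod p)[X] ⧸ Ideal.span {(X : (ZMod p)[X]) ^ n}

end Fermat.Agent.Kummer
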