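import Fermat.Agent.Kummer.Defs

/-!
# T-KUMMER, task SG: Sophie Germain's theorem and Case I of FLT for `p = 5, 7, 11, 13`
-/

set_option autoImplicit false

namespace Fermat.Agent.Kummer

open Finset

/-- The cofactor `φ(y,z) = (y^p + z^p)/(y+z)`. -/
def sgPhi (p : ℕ) (y z : ℤ) : ℤ := ∑ i ∈ range p, y ^ i * (-z) ^ (p - 1 - i)

theorem sgPhi_mul {p : ℕ} (hp : Odd p) (y z : ℤ) : (y + z) * sgPhi p y z = y ^ p + z ^ p := by
  have h := geom_sum₂_mul y (-z) p
  rw [hp.neg_pow] at h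
  unfold sgPhi
  linarith

theorem sgPhi_isCoprime {p : ℕ} (hp : p.Prime) (y z : ℤ) (hyz : IsCoprime y z)
    (hpyz : ¬ (p : ℤ) ∣ y + z) : IsCoprime (y + z) (sgPhi p y z) := by
  apply isCoprime_of_prime_dvd
  · rintro ⟨h, -⟩
    exact hpyz (h ▸ dvd_zero _)
  · intro r hr h1 h2
    have h1' : r ∣ y - (-z) := by simpa using h1
    have h3 := (dvd_geom_sum₂_iff_of_dvd_sub (n := p) h1').mp h2
    rcases hr.dvd_or_dvd h3 with h4 | h4
    · have hpp : Prime (p : ℤ) := Nat.prime_iff_prime_int.mp hp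
      have : Associated r (p : ℤ) := hr.associated_of_dvd hpp h4
      exact hpyz (this.symm.dvd.trans h1)
    · have h5 : r ∣ z := by
        have := hr.dvd_of_dvd_pow h4
        simpa using this
      have h6 : r ∣ y := by
        have := dvd_sub h1 h5
        simpa using this
      exact hr.not_isUnit (hyz.isUnit_of_dvd' h6 h5)

/-- key factorisation -/
theorem sg_factor {p : ℕ} (hp : p.Prime) (hp2 : p ≠ 2) (x y z : ℤ) (hyz : IsCoprime y z)
    (hpx : ¬ (p : ℤ) ∣ x) (h : x ^ p + y ^ p + z ^ p = 0) :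
    (∃ A : ℤ, y + z = A ^ p) ∧ ∃ α : ℤ, sgPhi p y z = α ^ p := by
  have hodd : Odd p := hp.odd_of_ne_two hp2
  have hpp : Prime (p : ℤ) := Nat.prime_iff_prime_int.mp hp
  have hmul : (y + z) * sgPhi p y z = (-x) ^ p := by
    rw [sgPhi_mul hodd, hodd.neg_pow]; linarith
  have hpyz : ¬ (p : ℤ) ∣ y + z := by
    intro hd
    have : (p : ℤ) ∣ (-x) ^ p := hmul ▸ hd.mul_right _
    have := hpp.dvd_of_dvd_pow this
    exact hpx (by simpa using this)
  exact Int.eq_pow_of_mul_eq_pow_odd (sgPhi_isCoprime hp y z hyz hpyz) hodd hmul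

theorem sg_aux {p q : ℕ} (hp : p.Prime) (hp2 : p ≠ 2) (hq : q.Prime)
    (h1 : ∀ x y z : ZMod q, x ^ p + y ^ p + z ^ p = 0 → x = 0 ∨ y = 0 ∨ z = 0)
    (h2 : ∀ x : ZMod q, x ^ p ≠ (p : ZMod q))
    (x y z : ℤ) (hxy : IsCoprime x y) (hyz : IsCoprime y z) (hzx : IsCoprime z x)
    (hpx : ¬ (p : ℤ) ∣ x) (hpy : ¬ (p : ℤ) ∣ y) (hpz : ¬ (p : ℤ) ∣ z)
    (h : x ^ p + y ^ p + z ^ p = 0) (hqx : (q : ℤ) ∣ x) : False := by
  have : Fact q.Prime := ⟨hq⟩
  have hodd : Odd p := hp.odd_of_ne_two hp2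
  have hqq : Prime (q : ℤ) := Nat.prime_iff_prime_int.mp hq
  obtain ⟨⟨A, hA⟩, α, hα⟩ := sg_factor hp hp2 x y z hyz hpx h
  obtain ⟨⟨B, hB⟩, -⟩ := sg_factor hp hp2 y z x hzx hpy (by linarith)
  obtain ⟨⟨C, hC⟩, -⟩ := sg_factor hp hp2 z x y hxy hpz (by linarith)
  have hx0 : (x : ZMod q) = 0 := (ZMod.intCast_zmod_eq_zero_iff_dvd x q).mpr hqx
  have hy0 : (y : ZMod q) ≠ 0 := by
    intro h0
    have := (ZMod.intCast_zmod_eq_zero_iff_dvd y q).mp h0
    exact hqq.not_isUnit (hxy.isUnit_of_dvd' hqx this)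
  have hz0 : (z : ZMod q) ≠ 0 := by
    intro h0
    have := (ZMod.intCast_zmod_eq_zero_iff_dvd z q).mp h0
    exact hqq.not_isUnit (hzx.isUnit_of_dvd' this hqx)
  have hA' : (y : ZMod q) + z = (A : ZMod q) ^ p := by exact_mod_cast congrArg (Int.cast : ℤ → ZMod q) hA
  have hB' : (z : ZMod q) + x = (B : ZMod q) ^ p := by exact_mod_cast congrArg (Int.cast : ℤ → ZMod q) hB
  have hC' : (x : ZMod q) + y = (C : ZMod q) ^ p := by exact_mod_cast congrArg (Int.cast : ℤ → ZMod q) hC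
  have hp0 : p ≠ 0 := hp.ne_zero
  have hsum : (B : ZMod q) ^ p + (C : ZMod q) ^ p + (-(A : ZMod q)) ^ p = 0 := by
    rw [hodd.neg_pow, ← hA', ← hB', ← hC', hx0]; ring
  rcases h1 _ _ _ hsum with hB0 | hC0 | hA0
  · rw [hB0, zero_pow hp0, hx0, add_zero] at hB'
    exact hz0 hB'
  · rw [hC0, zero_pow hp0, hx0, zero_add] at hC'
    exact hy0 hC'
  · have hA0' : (A : ZMod q) = 0 := by simpa using hA0
    rw [hA0', zero_pow hp0] at hA'
    have hzy : -(z : ZMod q) = y := by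
      linear_combination -hA'
    have hα' : (α : ZMod q) ^ p = (p : ZMod q) * (y : ZMod q) ^ (p - 1) := by
      have := congrArg (Int.cast : ℤ → ZMod q) hα
      unfold sgPhi at this
      push_cast at this
      rw [← this, hzy, geom_sum₂_self]
    have hyC : (y : ZMod q) = (C : ZMod q) ^ p := by rw [← hC', hx0, zero_add]
    have hC0 : (C : ZMod q) ≠ 0 := by
      intro h0
      rw [h0, zero_pow hp0] at hyC
      exact hy0 hyC
    apply h2 ((α : ZMod q) / (C : ZMod q) ^ (p - 1))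
    rw [div_pow, hα', hyC, ← pow_mul, ← pow_mul, mul_comm (p - 1) p]
    exact mul_div_cancel_right₀ _ (pow_ne_zero _ hC0)

theorem sophie_germain {p q : ℕ} (hp : p.Prime) (hp2 : p ≠ 2) (hq : q.Prime)
    (h1 : ∀ x y z : ZMod q, x ^ p + y ^ p + z ^ p = 0 → x = 0 ∨ y = 0 ∨ z = 0)
    (h2 : ∀ x : ZMod q, x ^ p ≠ (p : ZMod q))
    (a b c : ℤ) (hab : IsCoprime a b) (hpabc : ¬ (p : ℤ) ∣ a * b * c) :
    a ^ p + b ^ p ≠ c ^ p := by
  intro h
  have hodd : Odd p := hp.odd_of_ne_two hp2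
  have hp0 : 0 < p := hp.pos
  have hpa : ¬ (p : ℤ) ∣ a := fun hd => hpabc ((hd.mul_right b).mul_right c)
  have hpb : ¬ (p : ℤ) ∣ b := fun hd => hpabc ((hd.mul_left a).mul_right c)
  have hpc : ¬ (p : ℤ) ∣ -c := fun hd => hpabc ((dvd_neg.mp hd).mul_left (a * b))
  have hac : IsCoprime a c := by
    have h3 : IsCoprime a (c ^ p) := by
      rw [← h]
      have h4 : IsCoprime a (b ^ p) := hab.pow_right
      have h5 : a ^ p + b ^ p = b ^ p + a * a ^ (p - 1) := by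
        rw [mul_comm a, pow_sub_one_mul hp0.ne']; ring
      rw [h5]
      exact h4.add_mul_left_right _
    exact (IsCoprime.pow_right_iff hp0).mp h3
  have hbc : IsCoprime b c := by
    have h3 : IsCoprime b (c ^ p) := by
      rw [← h]
      have h4 : IsCoprime b (a ^ p) := hab.symm.pow_right
      have h5 : a ^ p + b ^ p = a ^ p + b * b ^ (p - 1) := by
        rw [mul_comm b, pow_sub_one_mul hp0.ne']
      rw [h5]
      exact h4.add_mul_left_right _
    exact (IsCoprime.pow_right_iff hp0).mp h3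
  have hsum : a ^ p + b ^ p + (-c) ^ p = 0 := by rw [hodd.neg_pow]; linarith
  have hsum' : (a : ZMod q) ^ p + (b : ZMod q) ^ p + ((-c : ℤ) : ZMod q) ^ p = 0 := by
    exact_mod_cast congrArg (Int.cast : ℤ → ZMod q) hsum
  rcases h1 _ _ _ hsum' with h0 | h0 | h0
  · exact sg_aux hp hp2 hq h1 h2 a b (-c) hab hbc.neg_right hac.symm.neg_left hpa hpb hpc hsum
      ((ZMod.intCast_zmod_eq_zero_iff_dvd _ q).mp h0)
  · exact sg_aux hp hp2 hq h1 h2 b (-c) a hbc.neg_right hac.symm.neg_left hab hpb hpc hpa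
      (by linarith) ((ZMod.intCast_zmod_eq_zero_iff_dvd _ q).mp h0)
  · exact sg_aux hp hp2 hq h1 h2 (-c) a b hac.symm.neg_left hab hbc.neg_right hpc hpa hpb
      (by linarith) ((ZMod.intCast_zmod_eq_zero_iff_dvd _ q).mp h0)

/-! ### The four instances -/

theorem sg_h1_of_two {p q : ℕ}
    (hS : ∀ x : ZMod q, x = 0 ∨ x ^ p = 1 ∨ x ^ p = -1)
    (h3 : (3 : ZMod q) ≠ 0) (h1 : (1 : ZMod q) ≠ 0) :
    ∀ x y z : ZMod q, x ^ p + y ^ p + z ^ p = 0 → x = 0 ∨ y = 0 ∨ z = 0 := by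
  intro x y z h
  rcases hS x with hx | hx | hx
  · exact Or.inl hx
  all_goals
    rcases hS y with hy | hy | hy
    · exact Or.inr (Or.inl hy)
    all_goals
      rcases hS z with hz | hz | hz
      · exact Or.inr (Or.inr hz)
      all_goals
        exfalso
        rw [hx, hy, hz] at h
        first
          | exact h3 (by linear_combination h)
          | exact h3 (by linear_combination -h)
          | exact h1 (by linear_combination h)
          | exact h1 (by linear_combination -h)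

theorem sg_h1_of_four {p q : ℕ} (i : ZMod q)
    (hS : ∀ x : ZMod q, x = 0 ∨ x ^ p = 1 ∨ x ^ p = -1 ∨ x ^ p = i ∨ x ^ p = -i)
    (hT : ∀ s ∈ ({1, -1, i, -i} : Finset (ZMod q)), ∀ t ∈ ({1, -1, i, -i} : Finset (ZMod q)),
      ∀ u ∈ ({1, -1, i, -i} : Finset (ZMod q)), s + t + u ≠ 0) :
    ∀ x y z : ZMod q, x ^ p + y ^ p + z ^ p = 0 → x = 0 ∨ y = 0 ∨ z = 0 := by
  intro x y z h
  have key : ∀ w : ZMod q, w = 0 ∨ w ^ p ∈ ({1, -1, i, -i} : Finset (ZMod q)) := by
    intro w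
    rcases hS w with hw | hw
    · exact Or.inl hw
    · right
      simpa using hw
  rcases key x with hx | hx
  · exact Or.inl hx
  rcases key y with hy | hy
  · exact Or.inr (Or.inl hy)
  rcases key z with hz | hz
  · exact Or.inr (Or.inr hz)
  exact absurd h (hT _ hx _ hy _ hz)

theorem caseI_five (a b c : ℤ) (hab : IsCoprime a b) (hpabc : ¬ ((5 : ℕ) : ℤ) ∣ a * b * c) :
    a ^ 5 + b ^ 5 ≠ c ^ 5 :=
  sophie_germain (p := 5) (q := 11) (by norm_num) (by norm_num) (by norm_num)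
    (sg_h1_of_two (by decide) (by decide) (by decide)) (by decide) a b c hab hpabc

theorem caseI_eleven (a b c : ℤ) (hab : IsCoprime a b) (hpabc : ¬ ((11 : ℕ) : ℤ) ∣ a * b * c) :
    a ^ 11 + b ^ 11 ≠ c ^ 11 :=
  sophie_germain (p := 11) (q := 23) (by norm_num) (by norm_num) (by norm_num)
    (sg_h1_of_two (by decide) (by decide) (by decide)) (by decide) a b c hab hpabc

theorem caseI_seven (a b c : ℤ) (hab : IsCoprime a b) (hpabc : ¬ ((7 : ℕ) : ℤ) ∣ a * b * c) :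
    a ^ 7 + b ^ 7 ≠ c ^ 7 :=
  sophie_germain (p := 7) (q := 29) (by norm_num) (by norm_num) (by norm_num)
    (sg_h1_of_four 12 (by decide) (by decide)) (by decide) a b c hab hpabc

theorem caseI_thirteen (a b c : ℤ) (hab : IsCoprime a b)
    (hpabc : ¬ ((13 : ℕ) : ℤ) ∣ a * b * c) :
    a ^ 13 + b ^ 13 ≠ c ^ 13 :=
  sophie_germain (p := 13) (q := 53) (by norm_num) (by norm_num) (by norm_num)
    (sg_h1_of_four 23 (by decide +kernel) (by decide +kernel)) (by decide +kernel) a b c hab hpabc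

theorem caseI {p : ℕ} (hp : p = 5 ∨ p = 7 ∨ p = 11 ∨ p = 13)
    (a b c : ℤ) (hab : IsCoprime a b) (hpabc : ¬ (p : ℤ) ∣ a * b * c) :
    a ^ p + b ^ p ≠ c ^ p := by
  rcases hp with rfl | rfl | rfl | rfl
  · exact caseI_five a b c hab hpabc
  · exact caseI_seven a b c hab hpabc
  · exact caseI_eleven a b c hab hpabc
  · exact caseI_thirteen a b c hab hpabc

end Fermat.Agent.Kummer
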