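import Fermat.Agent.Kummer.CaseII
import Fermat.Agent.Kummer.SophieGermain

/-!
# Assembly: FLT for `p ∈ {5, 7, 11, 13}` from Case I, Case II, the PID property and Kummer's lemma

The generic statement `flt_of_pid_of_kummerLemma` takes the PID property and Kummer's lemma for
`CyclotomicField p ℚ` as hypotheses, so that each prime can be finished independently.
-/

set_option autoImplicit false

namespace Fermat.Agent.Kummer

open NumberField

/-- FLT for the exponent `p ∈ {5, 7, 11, 13}` and coprime `a`, `b`, given that the ring of integers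
of the `p`-th cyclotomic field is a PID and satisfies Kummer's lemma. -/
theorem flt_of_pid_of_kummerLemma {p : ℕ} (hp : p = 5 ∨ p = 7 ∨ p = 11 ∨ p = 13)
    (hpid : IsPrincipalIdealRing (𝓞 (CyclotomicField p ℚ)))
    (hK : KummerLemma p (CyclotomicField p ℚ))
    (a b c : ℤ) (ha : a ≠ 0) (hb : b ≠ 0) (hc : c ≠ 0) (hab : IsCoprime a b) :
    a ^ p + b ^ p ≠ c ^ p := by
  have hpp : p.Prime := by rcases hp with rfl | rfl | rfl | rfl <;> norm_num
  have hp2 : p ≠ 2 := by rcases hp with rfl | rfl | rfl | rfl <;> norm_num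
  have : Fact p.Prime := ⟨hpp⟩
  have : NeZero p := ⟨hpp.ne_zero⟩
  have : IsCyclotomicExtension {p} ℚ (CyclotomicField p ℚ) :=
    CyclotomicField.isCyclotomicExtension p ℚ
  by_cases hdvd : (p : ℤ) ∣ a * b * c
  · exact caseII hp2 hK a b c hab (mul_ne_zero (mul_ne_zero ha hb) hc) hdvd
  · exact caseI hp a b c hab hdvd

end Fermat.Agent.Kummer
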