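import Fermat.Agent.Kummer.Defs

/-!
# T-KUMMER, task KL1: abstract linear algebra lemma
-/

set_option autoImplicit false

namespace Fermat.Agent.Kummer

theorem toAdd_map_prod_zpow {E V : Type*} [CommGroup E] {p n : ℕ} [Fact p.Prime]
    [AddCommGroup V] [Module (ZMod p) V] (g : Fin n → E) (φ : E →* Multiplicative V)
    (e : Fin n → ℤ) :
    Multiplicative.toAdd (φ (∏ i, g i ^ e i)) =
      ∑ i, (e i : ZMod p) • Multiplicative.toAdd (φ (g i)) := by
  rw [map_prod, toAdd_prod]
  refine Finset.sum_congr rfl fun i _ => ?_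
  rw [map_zpow, toAdd_zpow, Int.cast_smul_eq_zsmul]

theorem exists_pow_eq_of_map_eq_one {E V : Type*} [CommGroup E] {p n : ℕ} [Fact p.Prime]
    [AddCommGroup V] [Module (ZMod p) V]
    (g : Fin n → E) (hg : ∀ u : E, ∃ e : Fin n → ℤ, u = ∏ i, g i ^ e i)
    (φ : E →* Multiplicative V) (w : Fin n → E)
    (hw : LinearIndependent (ZMod p) (fun i => Multiplicative.toAdd (φ (w i))))
    (u : E) (hu : φ u = 1) : ∃ v : E, u = v ^ p := by
  classical
  set a : Fin n → V := fun i => Multiplicative.toAdd (φ (g i)) with ha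
  set b : Fin n → V := fun i => Multiplicative.toAdd (φ (w i)) with hb
  have hle : Submodule.span (ZMod p) (Set.range b) ≤ Submodule.span (ZMod p) (Set.range a) := by
    rw [Submodule.span_le]
    rintro _ ⟨i, rfl⟩
    obtain ⟨e, he⟩ := hg (w i)
    show Multiplicative.toAdd (φ (w i)) ∈ _
    rw [he, toAdd_map_prod_zpow (p := p)]
    exact Submodule.sum_mem _ fun j _ =>
      Submodule.smul_mem _ _ (Submodule.subset_span ⟨j, rfl⟩)
  have hind : LinearIndependent (ZMod p) a := by
    rw [linearIndependent_iff_card_le_finrank_span]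
    have h1 : Module.finrank (ZMod p) (Submodule.span (ZMod p) (Set.range b)) = Fintype.card (Fin n) :=
      finrank_span_eq_card hw
    rw [← h1]
    haveI : Module.Finite (ZMod p) (Submodule.span (ZMod p) (Set.range a)) :=
      Module.Finite.span_of_finite _ (Set.finite_range a)
    exact Submodule.finrank_mono hle
  obtain ⟨e, he⟩ := hg u
  have h0 : ∑ i, (e i : ZMod p) • a i = 0 := by
    rw [← toAdd_map_prod_zpow (p := p), ← he, hu]; rfl
  have h1 := Fintype.linearIndependent_iff.mp hind _ h0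
  have h2 : ∀ i, ∃ f : ℤ, e i = p * f := fun i =>
    (ZMod.intCast_zmod_eq_zero_iff_dvd (e i) p).mp (h1 i)
  choose f hf using h2
  refine ⟨∏ i, g i ^ f i, ?_⟩
  rw [he, ← Finset.prod_pow]
  refine Finset.prod_congr rfl fun i _ => ?_
  rw [hf i, ← zpow_natCast, ← zpow_mul, mul_comm]

end Fermat.Agent.Kummer
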