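import Fermat.Agent.Kummer.KummerCertBase

/-!
# T-KUMMER, task KL4: Kummer's lemma for `p = 11` (explicit certificate)
-/

set_option autoImplicit false
set_option linter.unusedSimpArgs false

namespace Fermat.Agent.Kummer

open NumberField Polynomial

/-- the matrix of logarithmic derivatives -/
def cert11M : Matrix (Fin 5) (Fin 9) (ZMod 11) :=
  !![1, 10, 1, 10, 1, 10, 1, 10, 1;
      6, 8, 7, 2, 10, 6, 8, 7, 2;
      1, 7, 0, 5, 6, 7, 2, 3, 0;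
      7, 8, 1, 8, 7, 6, 4, 0, 0;
      2, 0, 10, 3, 0, 6, 5, 6, 5]

/-- a right inverse of `cert11M` -/
def cert11N : Matrix (Fin 9) (Fin 5) (ZMod 11) :=
  !![9, 6, 7, 0, 2;
      1, 8, 7, 4, 2;
      0, 0, 0, 0, 0;
      9, 0, 1, 3, 1;
      0, 0, 0, 0, 0;
      0, 8, 5, 0, 1;
      0, 0, 0, 0, 0;
      9, 1, 5, 4, 9;
      0, 0, 0, 0, 0]

lemma cert11_mul : cert11M * cert11N = 1 := by
  decide

theorem hasKummerCert_eleven {K : Type*} [Field K] [NumberField K]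
    [IsCyclotomicExtension {11} ℚ K] {ζ : K} (hζ : IsPrimitiveRoot ζ 11) : HasKummerCert 11 hζ := by
  have : Fact (Nat.Prime 11) := ⟨by norm_num⟩
  have hp0 : ((11 : ℕ) : (ZMod 11)[X]) = 0 := CharP.cast_eq_zero _ _
  have hp : (11 : (ZMod 11)[X]) = 0 := by exact_mod_cast hp0
  refine hasKummerCert_of_matrix (p := 11) (r := 5) (n := 9) (by norm_num) (by norm_num) hζ
    ![1 + X,
      2 + X,
      3 + 3 * X + X ^ 2,
      4 + 6 * X + 4 * X ^ 2 + X ^ 3,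
      5 + 10 * X + 10 * X ^ 2 + 5 * X ^ 3 + X ^ 4]
    cert11M cert11N ?_ ?_ cert11_mul
  · intro i
    fin_cases i
    · exact isUnit_aeval_one_add_X hζ
    · exact isUnit_aeval_of_X_mul_eq hζ 2 (by norm_num) (by norm_num)
        (2 + X) (by ring)
    · exact isUnit_aeval_of_X_mul_eq hζ 3 (by norm_num) (by norm_num)
        (3 + 3 * X + X ^ 2) (by ring)
    · exact isUnit_aeval_of_X_mul_eq hζ 4 (by norm_num) (by norm_num)
        (4 + 6 * X + 4 * X ^ 2 + X ^ 3) (by ring)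
    · exact isUnit_aeval_of_X_mul_eq hζ 5 (by norm_num) (by norm_num)
        (5 + 10 * X + 10 * X ^ 2 + 5 * X ^ 3 + X ^ 4) (by ring)
  · intro i
    fin_cases i
    · exact cert_dvd _ _
        (1 + 10 * X + X ^ 2 + 10 * X ^ 3 + X ^ 4 + 10 * X ^ 5 + X ^ 6 + 10 * X ^ 7 + X ^ 8)
        (1 + X)
        (1)
        (1)
        (by simp [cert11M, polyOfVec, Fin.sum_univ_succ, map_ofNat]; try ring)
        (by simp) (by simp [map_ofNat]; try ring)
        (by linear_combination (X + X ^ 2 + X ^ 3 + X ^ 4 + X ^ 5 + X ^ 6 + X ^ 7 + X ^ 8) * hp)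
    · exact cert_dvd _ _
        (6 + 8 * X + 7 * X ^ 2 + 2 * X ^ 3 + 10 * X ^ 4 + 6 * X ^ 5 + 8 * X ^ 6 + 7 * X ^ 7 + 2 * X ^ 8)
        (2 + X)
        (1)
        (2)
        (by simp [cert11M, polyOfVec, Fin.sum_univ_succ, map_ofNat]; try ring)
        (by simp) (by simp [map_ofNat]; try ring)
        (by linear_combination (1 + 2 * X + 2 * X ^ 2 + X ^ 3 + 2 * X ^ 4 + 2 * X ^ 5 + 2 * X ^ 6 + 2 * X ^ 7 + X ^ 8) * hp)
    · exact cert_dvd _ _
        (1 + 7 * X + 5 * X ^ 3 + 6 * X ^ 4 + 7 * X ^ 5 + 2 * X ^ 6 + 3 * X ^ 7)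
        (3 + 3 * X + X ^ 2)
        (3 + 2 * X)
        (3)
        (by simp [cert11M, polyOfVec, Fin.sum_univ_succ, map_ofNat]; try ring)
        (by simp) (by simp [map_ofNat]; try ring)
        (by linear_combination (2 * X + 2 * X ^ 2 + 2 * X ^ 3 + 3 * X ^ 4 + 4 * X ^ 5 + 3 * X ^ 6 + 2 * X ^ 7 + X ^ 8) * hp)
    · exact cert_dvd _ _
        (7 + 8 * X + X ^ 2 + 8 * X ^ 3 + 7 * X ^ 4 + 6 * X ^ 5 + 4 * X ^ 6)
        (4 + 6 * X + 4 * X ^ 2 + X ^ 3)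
        (6 + 8 * X + 3 * X ^ 2)
        (4)
        (by simp [cert11M, polyOfVec, Fin.sum_univ_succ, map_ofNat]; try ring)
        (by simp) (by simp [map_ofNat]; try ring)
        (by linear_combination (2 + 6 * X + 7 * X ^ 2 + 7 * X ^ 3 + 8 * X ^ 4 + 9 * X ^ 5 + 8 * X ^ 6 + 5 * X ^ 7 + 2 * X ^ 8) * hp)
    · exact cert_dvd _ _
        (2 + 10 * X ^ 2 + 3 * X ^ 3 + 6 * X ^ 5 + 5 * X ^ 6 + 6 * X ^ 7 + 5 * X ^ 8)
        (5 + 10 * X + 10 * X ^ 2 + 5 * X ^ 3 + X ^ 4)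
        (10 + 20 * X + 15 * X ^ 2 + 4 * X ^ 3)
        (141 + 85 * X + 31 * X ^ 2 + 5 * X ^ 3)
        (by simp [cert11M, polyOfVec, Fin.sum_univ_succ, map_ofNat]; try ring)
        (by simp) (by simp [map_ofNat]; try ring)
        (by linear_combination (5 * X ^ 2 + 11 * X ^ 3 + 12 * X ^ 4 + 10 * X ^ 5 + 10 * X ^ 6 + 13 * X ^ 7 + 15 * X ^ 8) * hp)

end Fermat.Agent.Kummer
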