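import Fermat.Agent.Kummer.KummerCertBase

/-!
# T-KUMMER, task KL4: Kummer's lemma for `p = 13` (explicit certificate)
-/

set_option autoImplicit false
set_option linter.unusedSimpArgs false

namespace Fermat.Agent.Kummer

open NumberField Polynomial

/-- the matrix of logarithmic derivatives -/
def cert13M : Matrix (Fin 6) (Fin 11) (ZMod 13) :=
  !![1, 12, 1, 12, 1, 12, 1, 12, 1, 12, 1;
      7, 3, 5, 4, 11, 1, 6, 10, 8, 9, 2;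
      1, 4, 0, 3, 10, 2, 12, 9, 0, 10, 3;
      8, 3, 11, 11, 1, 1, 11, 5, 4, 9, 4;
      2, 0, 12, 6, 0, 2, 11, 4, 7, 3, 5;
      9, 8, 3, 8, 9, 1, 6, 7, 6, 7, 6]

/-- a right inverse of `cert13M` -/
def cert13N : Matrix (Fin 11) (Fin 6) (ZMod 13) :=
  !![1, 10, 12, 7, 4, 4;
      3, 2, 12, 11, 2, 1;
      0, 0, 0, 0, 0, 0;
      3, 10, 2, 9, 2, 2;
      0, 0, 0, 0, 0, 0;
      9, 7, 4, 9, 7, 11;
      0, 0, 0, 0, 0, 0;
      7, 11, 0, 6, 1, 1;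
      0, 0, 0, 0, 0, 0;
      4, 6, 7, 11, 5, 2;
      0, 0, 0, 0, 0, 0]

lemma cert13_mul : cert13M * cert13N = 1 := by
  decide

theorem hasKummerCert_thirteen {K : Type*} [Field K] [NumberField K]
    [IsCyclotomicExtension {13} ℚ K] {ζ : K} (hζ : IsPrimitiveRoot ζ 13) : HasKummerCert 13 hζ := by
  have : Fact (Nat.Prime 13) := ⟨by norm_num⟩
  have hp0 : ((13 : ℕ) : (ZMod 13)[X]) = 0 := CharP.cast_eq_zero _ _
  have hp : (13 : (ZMod 13)[X]) = 0 := by exact_mod_cast hp0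
  refine hasKummerCert_of_matrix (p := 13) (r := 6) (n := 11) (by norm_num) (by norm_num) hζ
    ![1 + X,
      2 + X,
      3 + 3 * X + X ^ 2,
      4 + 6 * X + 4 * X ^ 2 + X ^ 3,
      5 + 10 * X + 10 * X ^ 2 + 5 * X ^ 3 + X ^ 4,
      6 + 15 * X + 20 * X ^ 2 + 15 * X ^ 3 + 6 * X ^ 4 + X ^ 5]
    cert13M cert13N ?_ ?_ cert13_mul
  · intro i
    fin_cases i
    · exact isUnit_aeval_one_add_X hζ
    · exact isUnit_aeval_of_X_mul_eq hζ 2 (by norm_num) (by norm_num)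
        (2 + X) (by ring)
    · exact isUnit_aeval_of_X_mul_eq hζ 3 (by norm_num) (by norm_num)
        (3 + 3 * X + X ^ 2) (by ring)
    · exact isUnit_aeval_of_X_mul_eq hζ 4 (by norm_num) (by norm_num)
        (4 + 6 * X + 4 * X ^ 2 + X ^ 3) (by ring)
    · exact isUnit_aeval_of_X_mul_eq hζ 5 (by norm_num) (by norm_num)
        (5 + 10 * X + 10 * X ^ 2 + 5 * X ^ 3 + X ^ 4) (by ring)
    · exact isUnit_aeval_of_X_mul_eq hζ 6 (by norm_num) (by norm_num)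
        (6 + 15 * X + 20 * X ^ 2 + 15 * X ^ 3 + 6 * X ^ 4 + X ^ 5) (by ring)
  · intro i
    fin_cases i
    · exact cert_dvd _ _
        (1 + 12 * X + X ^ 2 + 12 * X ^ 3 + X ^ 4 + 12 * X ^ 5 + X ^ 6 + 12 * X ^ 7 + X ^ 8 + 12 * X ^ 9 + X ^ 10)
        (1 + X)
        (1)
        (1)
        (by simp [cert13M, polyOfVec, Fin.sum_univ_succ, map_ofNat]; try ring)
        (by simp) (by simp [map_ofNat]; try ring)
        (by linear_combination (X + X ^ 2 + X ^ 3 + X ^ 4 + X ^ 5 + X ^ 6 + X ^ 7 + X ^ 8 + X ^ 9 + X ^ 10) * hp)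
    · exact cert_dvd _ _
        (7 + 3 * X + 5 * X ^ 2 + 4 * X ^ 3 + 11 * X ^ 4 + X ^ 5 + 6 * X ^ 6 + 10 * X ^ 7 + 8 * X ^ 8 + 9 * X ^ 9 + 2 * X ^ 10)
        (2 + X)
        (1)
        (2)
        (by simp [cert13M, polyOfVec, Fin.sum_univ_succ, map_ofNat]; try ring)
        (by simp) (by simp [map_ofNat]; try ring)
        (by linear_combination (1 + X + X ^ 2 + X ^ 3 + 2 * X ^ 4 + X ^ 5 + X ^ 6 + 2 * X ^ 7 + 2 * X ^ 8 + 2 * X ^ 9 + X ^ 10) * hp)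
    · exact cert_dvd _ _
        (1 + 4 * X + 3 * X ^ 3 + 10 * X ^ 4 + 2 * X ^ 5 + 12 * X ^ 6 + 9 * X ^ 7 + 10 * X ^ 9 + 3 * X ^ 10)
        (3 + 3 * X + X ^ 2)
        (3 + 2 * X)
        (19 + 3 * X)
        (by simp [cert13M, polyOfVec, Fin.sum_univ_succ, map_ofNat]; try ring)
        (by simp) (by simp [map_ofNat]; try ring)
        (by linear_combination (X + X ^ 2 + X ^ 3 + 3 * X ^ 4 + 3 * X ^ 5 + 4 * X ^ 6 + 5 * X ^ 7 + 3 * X ^ 8 + 3 * X ^ 9 + 3 * X ^ 10) * hp)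
    · exact cert_dvd _ _
        (8 + 3 * X + 11 * X ^ 2 + 11 * X ^ 3 + X ^ 4 + X ^ 5 + 11 * X ^ 6 + 5 * X ^ 7 + 4 * X ^ 8 + 9 * X ^ 9 + 4 * X ^ 10)
        (4 + 6 * X + 4 * X ^ 2 + X ^ 3)
        (6 + 8 * X + 3 * X ^ 2)
        (64 + 25 * X + 4 * X ^ 2)
        (by simp [cert13M, polyOfVec, Fin.sum_univ_succ, map_ofNat]; try ring)
        (by simp) (by simp [map_ofNat]; try ring)
        (by linear_combination (2 + 4 * X + 7 * X ^ 2 + 10 * X ^ 3 + 9 * X ^ 4 + 5 * X ^ 5 + 5 * X ^ 6 + 7 * X ^ 7 + 7 * X ^ 8 + 7 * X ^ 9 + 7 * X ^ 10) * hp)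
    · exact cert_dvd _ _
        (2 + 12 * X ^ 2 + 6 * X ^ 3 + 2 * X ^ 5 + 11 * X ^ 6 + 4 * X ^ 7 + 7 * X ^ 8 + 3 * X ^ 9 + 5 * X ^ 10)
        (5 + 10 * X + 10 * X ^ 2 + 5 * X ^ 3 + X ^ 4)
        (10 + 20 * X + 15 * X ^ 2 + 4 * X ^ 3)
        (119 + 72 * X + 28 * X ^ 2 + 5 * X ^ 3)
        (by simp [cert13M, polyOfVec, Fin.sum_univ_succ, map_ofNat]; try ring)
        (by simp) (by simp [map_ofNat]; try ring)
        (by linear_combination (5 * X ^ 2 + 12 * X ^ 3 + 14 * X ^ 4 + 10 * X ^ 5 + 9 * X ^ 6 + 12 * X ^ 7 + 15 * X ^ 8 + 14 * X ^ 9 + 12 * X ^ 10) * hp)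
    · exact cert_dvd _ _
        (9 + 8 * X + 3 * X ^ 2 + 8 * X ^ 3 + 9 * X ^ 4 + X ^ 5 + 6 * X ^ 6 + 7 * X ^ 7 + 6 * X ^ 8 + 7 * X ^ 9 + 6 * X ^ 10)
        (6 + 15 * X + 20 * X ^ 2 + 15 * X ^ 3 + 6 * X ^ 4 + X ^ 5)
        (15 + 40 * X + 45 * X ^ 2 + 24 * X ^ 3 + 5 * X ^ 4)
        (368 + 268 * X + 138 * X ^ 2 + 43 * X ^ 3 + 6 * X ^ 4)
        (by simp [cert13M, polyOfVec, Fin.sum_univ_succ, map_ofNat]; try ring)
        (by simp) (by simp [map_ofNat]; try ring)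
        (by linear_combination (3 + 11 * X + 21 * X ^ 2 + 28 * X ^ 3 + 31 * X ^ 4 + 31 * X ^ 5 + 29 * X ^ 6 + 26 * X ^ 7 + 26 * X ^ 8 + 29 * X ^ 9 + 31 * X ^ 10) * hp)

end Fermat.Agent.Kummer
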