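import Fermat.Agent.Kummer.KummerCertBase

/-!
# T-KUMMER, task KL4: Kummer's lemma for `p = 5` (explicit certificate)
-/

set_option autoImplicit false
set_option linter.unusedSimpArgs false

namespace Fermat.Agent.Kummer

open NumberField Polynomial

/-- the matrix of logarithmic derivatives -/
def cert5M : Matrix (Fin 2) (Fin 3) (ZMod 5) :=
  !![1, 4, 1;
      3, 1, 2]

/-- a right inverse of `cert5M` -/
def cert5N : Matrix (Fin 3) (Fin 2) (ZMod 5) :=
  !![4, 4;
      3, 4;
      0, 0]

lemma cert5_mul : cert5M * cert5N = 1 := by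
  decide

theorem hasKummerCert_five {K : Type*} [Field K] [NumberField K]
    [IsCyclotomicExtension {5} ℚ K] {ζ : K} (hζ : IsPrimitiveRoot ζ 5) : HasKummerCert 5 hζ := by
  have : Fact (Nat.Prime 5) := ⟨by norm_num⟩
  have hp0 : ((5 : ℕ) : (ZMod 5)[X]) = 0 := CharP.cast_eq_zero _ _
  have hp : (5 : (ZMod 5)[X]) = 0 := by exact_mod_cast hp0
  refine hasKummerCert_of_matrix (p := 5) (r := 2) (n := 3) (by norm_num) (by norm_num) hζ
    ![1 + X,
      2 + X]
    cert5M cert5N ?_ ?_ cert5_mul
  · intro i
    fin_cases i
    · exact isUnit_aeval_one_add_X hζ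
    · exact isUnit_aeval_of_X_mul_eq hζ 2 (by norm_num) (by norm_num)
        (2 + X) (by ring)
  · intro i
    fin_cases i
    · exact cert_dvd _ _
        (1 + 4 * X + X ^ 2)
        (1 + X)
        (1)
        (1)
        (by simp [cert5M, polyOfVec, Fin.sum_univ_succ, map_ofNat]; try ring)
        (by simp) (by simp [map_ofNat]; try ring)
        (by linear_combination (X + X ^ 2) * hp)
    · exact cert_dvd _ _
        (3 + X + 2 * X ^ 2)
        (2 + X)
        (1)
        (2)
        (by simp [cert5M, polyOfVec, Fin.sum_univ_succ, map_ofNat]; try ring)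
        (by simp) (by simp [map_ofNat]; try ring)
        (by linear_combination (1 + X + X ^ 2) * hp)

end Fermat.Agent.Kummer
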