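import Fermat.Agent.Kummer.KummerCertBase

/-!
# T-KUMMER, task KL4: Kummer's lemma for `p = 7` (explicit certificate)
-/

set_option autoImplicit false
set_option linter.unusedSimpArgs false

namespace Fermat.Agent.Kummer

open NumberField Polynomial

/-- the matrix of logarithmic derivatives -/
def cert7M : Matrix (Fin 3) (Fin 5) (ZMod 7) :=
  !![1, 6, 1, 6, 1;
      4, 5, 1, 3, 2;
      1, 2, 0, 4, 3]

/-- a right inverse of `cert7M` -/
def cert7N : Matrix (Fin 5) (Fin 3) (ZMod 7) :=
  !![0, 3, 3;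
      5, 4, 0;
      0, 0, 0;
      1, 6, 3;
      0, 0, 0]

lemma cert7_mul : cert7M * cert7N = 1 := by
  decide

theorem hasKummerCert_seven {K : Type*} [Field K] [NumberField K]
    [IsCyclotomicExtension {7} ℚ K] {ζ : K} (hζ : IsPrimitiveRoot ζ 7) : HasKummerCert 7 hζ := by
  have : Fact (Nat.Prime 7) := ⟨by norm_num⟩
  have hp0 : ((7 : ℕ) : (ZMod 7)[X]) = 0 := CharP.cast_eq_zero _ _
  have hp : (7 : (ZMod 7)[X]) = 0 := by exact_mod_cast hp0
  refine hasKummerCert_of_matrix (p := 7) (r := 3) (n := 5) (by norm_num) (by norm_num) hζ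
    ![1 + X,
      2 + X,
      3 + 3 * X + X ^ 2]
    cert7M cert7N ?_ ?_ cert7_mul
  · intro i
    fin_cases i
    · exact isUnit_aeval_one_add_X hζ
    · exact isUnit_aeval_of_X_mul_eq hζ 2 (by norm_num) (by norm_num)
        (2 + X) (by ring)
    · exact isUnit_aeval_of_X_mul_eq hζ 3 (by norm_num) (by norm_num)
        (3 + 3 * X + X ^ 2) (by ring)
  · intro i
    fin_cases i
    · exact cert_dvd _ _
        (1 + 6 * X + X ^ 2 + 6 * X ^ 3 + X ^ 4)
        (1 + X)
        (1)
        (1)
        (by simp [cert7M, polyOfVec, Fin.sum_univ_succ, map_ofNat]; try ring)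
        (by simp) (by simp [map_ofNat]; try ring)
        (by linear_combination (X + X ^ 2 + X ^ 3 + X ^ 4) * hp)
    · exact cert_dvd _ _
        (4 + 5 * X + X ^ 2 + 3 * X ^ 3 + 2 * X ^ 4)
        (2 + X)
        (1)
        (2)
        (by simp [cert7M, polyOfVec, Fin.sum_univ_succ, map_ofNat]; try ring)
        (by simp) (by simp [map_ofNat]; try ring)
        (by linear_combination (1 + 2 * X + X ^ 2 + X ^ 3 + X ^ 4) * hp)
    · exact cert_dvd _ _
        (1 + 2 * X + 4 * X ^ 3 + 3 * X ^ 4)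
        (3 + 3 * X + X ^ 2)
        (3 + 2 * X)
        (13 + 3 * X)
        (by simp [cert7M, polyOfVec, Fin.sum_univ_succ, map_ofNat]; try ring)
        (by simp) (by simp [map_ofNat]; try ring)
        (by linear_combination (X + X ^ 2 + 2 * X ^ 3 + 3 * X ^ 4) * hp)

end Fermat.Agent.Kummer
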