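import Fermat.Agent.Kummer.DLog
import Fermat.Agent.Kummer.KummerCert5
import Fermat.Agent.Kummer.KummerCert7
import Fermat.Agent.Kummer.KummerCert11
import Fermat.Agent.Kummer.KummerCert13

/-!
# T-KUMMER, task KL4: Kummer's lemma for `p = 5, 7, 11, 13`
-/

set_option autoImplicit false

namespace Fermat.Agent.Kummer

open NumberField Polynomial

theorem kummerLemma_of_hasKummerCert {p : ℕ} [Fact p.Prime] (hp2 : p ≠ 2) {K : Type*} [Field K]
    [NumberField K] [IsCyclotomicExtension {p} ℚ K] {ζ : K} (hζ : IsPrimitiveRoot ζ p)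
    (h : HasKummerCert p hζ) : KummerLemma p K := by
  obtain ⟨G, W, hG, hW, hind⟩ := h
  exact kummerLemma_of_cert hp2 hζ G W hG hW hind

theorem kummerLemma_five {K : Type*} [Field K] [NumberField K] [IsCyclotomicExtension {5} ℚ K] :
    KummerLemma 5 K := by
  have : Fact (Nat.Prime 5) := ⟨by norm_num⟩
  exact kummerLemma_of_hasKummerCert (by norm_num) (IsCyclotomicExtension.zeta_spec 5 ℚ K)
    (hasKummerCert_five _)

theorem kummerLemma_seven {K : Type*} [Field K] [NumberField K] [IsCyclotomicExtension {7} ℚ K] :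
    KummerLemma 7 K := by
  have : Fact (Nat.Prime 7) := ⟨by norm_num⟩
  exact kummerLemma_of_hasKummerCert (by norm_num) (IsCyclotomicExtension.zeta_spec 7 ℚ K)
    (hasKummerCert_seven _)

theorem kummerLemma_eleven {K : Type*} [Field K] [NumberField K]
    [IsCyclotomicExtension {11} ℚ K] : KummerLemma 11 K := by
  have : Fact (Nat.Prime 11) := ⟨by norm_num⟩
  exact kummerLemma_of_hasKummerCert (by norm_num) (IsCyclotomicExtension.zeta_spec 11 ℚ K)
    (hasKummerCert_eleven _)

theorem kummerLemma_thirteen {K : Type*} [Field K] [NumberField K]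
    [IsCyclotomicExtension {13} ℚ K] : KummerLemma 13 K := by
  have : Fact (Nat.Prime 13) := ⟨by norm_num⟩
  exact kummerLemma_of_hasKummerCert (by norm_num) (IsCyclotomicExtension.zeta_spec 13 ℚ K)
    (hasKummerCert_thirteen _)

end Fermat.Agent.Kummer
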