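import Fermat.Agent.Kummer.Defs

/-!
# T-KUMMER, task KL4: a convenient form of `kummerLemma_of_cert` for explicit certificates
-/

set_option autoImplicit false

namespace Fermat.Agent.Kummer

open NumberField Polynomial

/-- The polynomial with coefficient vector `v`. -/
noncomputable def polyOfVec {R : Type*} [Semiring R] {n : ℕ} (v : Fin n → R) : R[X] :=
  ∑ j : Fin n, C (v j) * X ^ (j : ℕ)

lemma polyOfVec_coeff {R : Type*} [Semiring R] {n : ℕ} (v : Fin n → R) (j : Fin n) :
    (polyOfVec v).coeff j = v j := by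
  classical
  rw [polyOfVec, finsetSum_coeff]
  simp_rw [coeff_C_mul_X_pow]
  rw [Finset.sum_eq_single j]
  · simp
  · intro b _ hb
    rw [if_neg]
    intro h
    exact hb (Fin.ext h.symm)
  · simp

lemma linearIndependent_of_mul_eq_one {F : Type*} [CommRing F] {r n : ℕ}
    (M : Matrix (Fin r) (Fin n) F) (N : Matrix (Fin n) (Fin r) F) (h : M * N = 1) :
    LinearIndependent F (fun i => M i) := by
  have : LinearIndependent F M.row := by
    rw [← Matrix.vecMul_injective_iff]
    intro a b hab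
    have hab' : Matrix.vecMul a M = Matrix.vecMul b M := hab
    have h1 : Matrix.vecMul (Matrix.vecMul a M) N = Matrix.vecMul (Matrix.vecMul b M) N := by
      rw [hab']
    rwa [Matrix.vecMul_vecMul, Matrix.vecMul_vecMul, h, Matrix.vecMul_one, Matrix.vecMul_one] at h1
  exact this

/-- The hypotheses of `kummerLemma_of_cert` (task KL3), packaged: a certificate for Kummer's lemma
for the prime `p`. -/
def HasKummerCert (p : ℕ) [NeZero p] {K : Type*} [Field K] [NumberField K] {ζ : K}
    (hζ : IsPrimitiveRoot ζ p) : Prop :=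
  ∃ (G : Fin ((p - 1) / 2) → ℤ[X]) (W : Fin ((p - 1) / 2) → (ZMod p)[X]),
    (∀ i, IsUnit (aeval (hζ.toInteger - 1) (G i) : 𝓞 K)) ∧
    (∀ i, (X : (ZMod p)[X]) ^ (p - 2) ∣
      W i * (G i).map (Int.castRingHom (ZMod p)) -
        derivative ((G i).map (Int.castRingHom (ZMod p)))) ∧
    LinearIndependent (ZMod p) (fun i => fun j : Fin (p - 2) => (W i).coeff j)

/-- A certificate with explicit sizes and the linear independence certified by a right
inverse matrix. -/
theorem hasKummerCert_of_matrix {p r n : ℕ} [Fact p.Prime]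
    (hr : (p - 1) / 2 = r) (hn : p - 2 = n) {K : Type*} [Field K]
    [NumberField K] {ζ : K} (hζ : IsPrimitiveRoot ζ p)
    (G : Fin r → ℤ[X]) (M : Matrix (Fin r) (Fin n) (ZMod p)) (N : Matrix (Fin n) (Fin r) (ZMod p))
    (hG : ∀ i, IsUnit (aeval (hζ.toInteger - 1) (G i) : 𝓞 K))
    (hW : ∀ i, (X : (ZMod p)[X]) ^ n ∣
      polyOfVec (M i) * (G i).map (Int.castRingHom (ZMod p)) -
        derivative ((G i).map (Int.castRingHom (ZMod p))))
    (hMN : M * N = 1) :
    HasKummerCert p hζ := by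
  subst hr hn
  refine ⟨G, fun i => polyOfVec (M i), hG, hW, ?_⟩
  have := linearIndependent_of_mul_eq_one M N hMN
  convert this using 2 with i
  funext j
  exact polyOfVec_coeff _ _

/-- `ζ = 1 + λ` is a unit. -/
lemma isUnit_aeval_one_add_X {p : ℕ} [Fact p.Prime] {K : Type*} [Field K]
    [NumberField K] [IsCyclotomicExtension {p} ℚ K] {ζ : K} (hζ : IsPrimitiveRoot ζ p) :
    IsUnit (aeval (hζ.toInteger - 1) (1 + X : ℤ[X]) : 𝓞 K) := by
  have h : (aeval (hζ.toInteger - 1) (1 + X : ℤ[X]) : 𝓞 K) = hζ.toInteger := by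
    simp
  rw [h]
  exact hζ.toInteger_isPrimitiveRoot.isUnit (Fact.out : p.Prime).ne_zero

/-- The cyclotomic unit `(ζ ^ k - 1) / (ζ - 1)`, written as a polynomial in `λ = ζ - 1`. -/
lemma isUnit_aeval_of_X_mul_eq {p : ℕ} [Fact p.Prime] {K : Type*} [Field K]
    [NumberField K] [IsCyclotomicExtension {p} ℚ K] {ζ : K} (hζ : IsPrimitiveRoot ζ p)
    (k : ℕ) (hk : 0 < k) (hkp : k < p) (G : ℤ[X]) (h : X * G = (1 + X) ^ k - 1) :
    IsUnit (aeval (hζ.toInteger - 1) G : 𝓞 K) := by
  have hp : p.Prime := Fact.out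
  have hcop : k.Coprime p := (Nat.coprime_of_lt_prime hk.ne' hkp hp).symm
  have hz := hζ.toInteger_isPrimitiveRoot
  have hu := hz.geom_sum_isUnit hp.two_le hcop
  convert hu using 1
  have hne : hζ.toInteger - 1 ≠ 0 := hz.sub_one_ne_zero hp.one_lt
  apply mul_left_cancel₀ hne
  have h1 := congrArg (aeval (hζ.toInteger - 1) : ℤ[X] → 𝓞 K) h
  simp only [map_mul, aeval_X, map_sub, map_pow, map_add, map_one, add_sub_cancel] at h1
  rw [h1, mul_geom_sum]

/-- Bookkeeping lemma for the divisibility condition of a certificate. -/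
lemma cert_dvd {p n : ℕ} (v : Fin n → ZMod p) (G : ℤ[X]) (w g g' S : (ZMod p)[X])
    (e1 : polyOfVec v = w) (e2 : G.map (Int.castRingHom (ZMod p)) = g) (e3 : derivative g = g')
    (h : w * g - g' = X ^ n * S) :
    (X : (ZMod p)[X]) ^ n ∣ polyOfVec v * G.map (Int.castRingHom (ZMod p)) -
      derivative (G.map (Int.castRingHom (ZMod p))) := by
  rw [e1, e2, e3, h]
  exact dvd_mul_right _ _

end Fermat.Agent.Kummer
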