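import Fermat.Agent.Kummer.Defs

/-!
# T-KUMMER, task PG: a principal prime above `q` from an explicit generator (Kummer-Dedekind)
-/

set_option autoImplicit false

namespace Fermat.Agent.Kummer

open NumberField Polynomial

open Ideal RingOfIntegers NumberField.Ideal in
theorem exists_isPrincipal_primesOver {p q : ℕ} [Fact p.Prime] [Fact q.Prime] (hpq : p ≠ q)
    {K : Type*} [Field K] [NumberField K] [IsCyclotomicExtension {p} ℚ K] {ζ : K}
    (hζ : IsPrimitiveRoot ζ p) (g : ℤ[X]) (hgm : g.Monic)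
    (hirr : Irreducible (g.map (Int.castRingHom (ZMod q))))
    (hdvd : g.map (Int.castRingHom (ZMod q)) ∣ cyclotomic p (ZMod q))
    (α β γ u v : 𝓞 K) (h1 : α * β = (q : 𝓞 K)) (h2 : α * γ = aeval hζ.toInteger g)
    (h3 : α = (q : 𝓞 K) * u + aeval hζ.toInteger g * v) :
    ∃ P ∈ primesOver (span {(q : ℤ)}) (𝓞 K), Submodule.IsPrincipal P := by
  have hp : p.Prime := Fact.out
  have hq : q.Prime := Fact.out
  have h₁ : ¬ q ∣ exponent hζ.toInteger := by
    rw [exponent_eq_one_iff.mpr <| IsCyclotomicExtension.Rat.adjoin_singleton_eq_top hζ]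
    exact hq.not_dvd_one
  have hmin : minpoly ℤ hζ.toInteger = cyclotomic p ℤ := by
    rw [cyclotomic_eq_minpoly hζ hp.pos]
    exact (RingOfIntegers.minpoly_coe hζ.toInteger).symm
  have hQ : g.map (Int.castRingHom (ZMod q)) ∈ monicFactorsMod hζ.toInteger q := by
    rw [Multiset.mem_toFinset, Polynomial.mem_normalizedFactors_iff
      (map_monic_ne_zero (minpoly.monic hζ.toInteger.isIntegral))]
    refine ⟨hirr, hgm.map _, ?_⟩
    rw [hmin, map_cyclotomic]
    exact hdvd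
  refine ⟨_, ((primesOverSpanEquivMonicFactorsMod h₁).symm ⟨_, hQ⟩).2, ?_⟩
  rw [primesOverSpanEquivMonicFactorsMod_symm_apply_eq_span h₁ hQ]
  refine ⟨α, ?_⟩
  rw [submodule_span_eq]
  apply le_antisymm
  · rw [span_le]
    intro x hx
    simp only [Set.mem_insert_iff, Set.mem_singleton_iff] at hx
    rcases hx with rfl | rfl
    · exact mem_span_singleton.mpr ⟨β, h1.symm⟩
    · exact mem_span_singleton.mpr ⟨γ, h2.symm⟩
  · rw [span_singleton_le_iff_mem, h3]
    exact add_mem (mul_mem_right _ _ (subset_span (by simp)))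
      (mul_mem_right _ _ (subset_span (by simp)))

section Bound

open Module InfinitePlace Ideal Nat Real

/-- the Minkowski bound of `ℚ(ζ_p)` -/
theorem minkowski_cyclotomic (p : ℕ) [Fact p.Prime] (K : Type*) [Field K] [NumberField K]
    [IsCyclotomicExtension {p} ℚ K] :
    (4 / π) ^ nrComplexPlaces K * ((finrank ℚ K)! / (finrank ℚ K) ^ (finrank ℚ K) * √|discr K|) =
    (4 / π) ^ ((p - 1) / 2) * (((p - 1)! : ℕ) / ((p - 1 : ℕ) : ℝ) ^ (p - 1) * √((p : ℝ) ^ (p - 2))) := by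
  have hp : p.Prime := Fact.out
  rw [IsCyclotomicExtension.Rat.discr_prime p K, IsCyclotomicExtension.finrank (n := p) K
    (cyclotomic.irreducible_rat hp.pos), IsCyclotomicExtension.Rat.nrComplexPlaces_eq_totient_div_two p,
    totient_prime hp]
  congr 3
  push_cast
  rw [abs_mul, abs_pow, abs_neg, abs_one, one_pow, one_mul, abs_pow]
  simp

theorem pid_of_bound (p : ℕ) [Fact p.Prime] (K : Type*) [Field K] [NumberField K]
    [IsCyclotomicExtension {p} ℚ K] (B : ℕ)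
    (hB : (4 / π) ^ ((p - 1) / 2) *
      (((p - 1)! : ℕ) / ((p - 1 : ℕ) : ℝ) ^ (p - 1) * √((p : ℝ) ^ (p - 2))) < B + 1)
    (h : ∀ q : ℕ, q.Prime → q ≠ p → ∀ j : ℕ, 0 < j → q ^ j ≤ B → q ^ j % p = 1 →
      ∃ P ∈ primesOver (span {(q : ℤ)}) (𝓞 K), Submodule.IsPrincipal P) :
    IsPrincipalIdealRing (𝓞 K) := by
  have hp : p.Prime := Fact.out
  have : IsGalois ℚ K := IsCyclotomicExtension.isGalois {p} ℚ K
  apply RingOfIntegers.isPrincipalIdealRing_of_isPrincipal_of_lt_or_isPrincipal_of_mem_primesOver_of_mem_Icc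
  rw [minkowski_cyclotomic p K]
  set M := (4 / π) ^ ((p - 1) / 2) *
      (((p - 1)! : ℕ) / ((p - 1 : ℕ) : ℝ) ^ (p - 1) * √((p : ℝ) ^ (p - 2))) with hM
  have hfl : ⌊M⌋₊ ≤ B := by
    have : ⌊M⌋₊ < B + 1 := by
      rw [Nat.floor_lt (by positivity)]
      exact_mod_cast hB
    omega
  intro q _ hq
  have : Fact q.Prime := ⟨hq⟩
  by_cases hqp : q = p
  · subst hqp
    have hζ := IsCyclotomicExtension.zeta_spec q ℚ K
    obtain ⟨⟨P, hP1, hP2⟩⟩ := (span {(q : ℤ)}).nonempty_primesOver (S := 𝓞 K)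
    refine ⟨P, ⟨hP1, hP2⟩, Or.inr ?_⟩
    rw [IsCyclotomicExtension.Rat.eq_span_zeta_sub_one_of_liesOver' q K hζ P]
    exact ⟨_, rfl⟩
  · obtain ⟨⟨P, hP1, hP2⟩⟩ := (span {(q : ℤ)}).nonempty_primesOver (S := 𝓞 K)
    have hnd : ¬ q ∣ p := fun hd => hqp ((Nat.prime_dvd_prime_iff_eq hq hp).mp hd)
    have hf := IsCyclotomicExtension.Rat.inertiaDeg_eq_of_not_dvd q K P hnd
    by_cases hlt : B < q ^ P.inertiaDeg ℤ
    · exact ⟨P, ⟨hP1, hP2⟩, Or.inl (lt_of_le_of_lt hfl hlt)⟩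
    · obtain ⟨Q, hQ, hQ'⟩ := h q hq hqp (orderOf (q : ZMod p)) (by
        apply orderOf_pos_iff.mpr
        have hu : IsUnit (q : ZMod p) := by
          rw [ZMod.isUnit_iff_coprime]
          exact (Nat.coprime_primes hq hp).mpr hqp
        exact hu.isOfFinOrder) (by rw [← hf]; omega) (by
        have h1 := pow_orderOf_eq_one (q : ZMod p)
        have h2 : ((q ^ orderOf (q : ZMod p) : ℕ) : ZMod p) = ((1 : ℕ) : ZMod p) := by
          push_cast; exact h1
        rw [ZMod.natCast_eq_natCast_iff'] at h2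
        rw [h2, Nat.mod_eq_of_lt hp.one_lt])
      exact ⟨Q, hQ, Or.inr hQ'⟩


/-- numeric helper to bound the Minkowski constant -/
theorem mink_bound_aux {r : ℕ} {c D s t : ℝ} (hc : 0 < c) (hs : 0 < s) (hD : D < s ^ 2)
    (ht : (4 / 3.14) ^ r * (c * s) ≤ t) : (4 / π) ^ r * (c * √D) < t := by
  have hπ : (3.14 : ℝ) < π := Real.pi_gt_d2
  have h1 : (4 / π) ^ r ≤ (4 / 3.14) ^ r := by
    gcongr
  have h2 : √D < s := (Real.sqrt_lt' hs).mpr hD
  have h3 : 0 < (4 / π) ^ r := by positivity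
  calc (4 / π) ^ r * (c * √D) < (4 / π) ^ r * (c * s) := by gcongr
    _ ≤ (4 / 3.14) ^ r * (c * s) := by gcongr
    _ ≤ t := ht

/-- exponent bound used in the enumeration of prime powers `≤ B` -/
theorem exp_lt_of_pow_le {q j B L : ℕ} (hq : 2 ≤ q) (h : q ^ j ≤ B) (hL : B < 2 ^ L) : j < L := by
  by_contra hcon
  have h1 : 2 ^ L ≤ q ^ j :=
    (Nat.pow_le_pow_right (by norm_num) (not_lt.mp hcon)).trans (Nat.pow_le_pow_left hq j)
  omega

end Bound

end Fermat.Agent.Kummer
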