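import Fermat.Agent.Kummer.PIDCommon
import Fermat.Agent.Kummer.PrincipalGen

/-!
# T-KUMMER: `ℤ[ζ₁₁]` is a PID
-/

set_option autoImplicit false

namespace Fermat.Agent.Kummer

open NumberField Polynomial Ideal Module InfinitePlace
open scoped Real Nat

namespace PID11

theorem floor_minkowski {K : Type*} [Field K] [NumberField K] [IsCyclotomicExtension {11} ℚ K] :
    ⌊(4 / π) ^ nrComplexPlaces K *
      ((finrank ℚ K)! / (finrank ℚ K) ^ (finrank ℚ K) * √|discr K|)⌋₊ ≤ 58 := by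
  have : Fact (Nat.Prime 11) := ⟨by norm_num⟩
  apply PIDCommon.floor_le_of_lt
  rw [PIDCommon.minkowski_eq (p := 11)]
  have h1 : (4 / π) ^ ((11 - 1) / 2) ≤ (4 / 3.1415 : ℝ) ^ 5 := by
    have h0 : (11 - 1) / 2 = 5 := by norm_num
    rw [h0]
    have := Real.pi_gt_d4
    gcongr
  have h2 : √(((11 : ℕ) : ℝ) ^ (11 - 2)) ≤ 48558.71 := by
    rw [Real.sqrt_le_iff]
    constructor <;> norm_num
  have h3 : (((11 - 1)! : ℕ) : ℝ) / ((11 - 1 : ℕ) : ℝ) ^ (11 - 1) = 3628800 / 10 ^ 10 := by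
    norm_num [Nat.factorial]
  rw [h3]
  calc (4 / π) ^ ((11 - 1) / 2) * (3628800 / 10 ^ 10 * √(((11 : ℕ) : ℝ) ^ (11 - 2)))
      ≤ (4 / 3.1415 : ℝ) ^ 5 * (3628800 / 10 ^ 10 * 48558.71) := by gcongr
    _ < ((58 : ℕ) : ℝ) + 1 := by norm_num

theorem check : ∀ q ∈ Finset.Icc (1 : ℕ) 58, q.Prime → q = 11 ∨ q = 23 ∨
    ∀ j ∈ Finset.Icc (1 : ℕ) 6, q ^ j ≤ 58 → ((q : ℕ) : ZMod 11) ^ j ≠ 1 := by
  decide

theorem principal_23 {K : Type*} [Field K] [NumberField K] [IsCyclotomicExtension {11} ℚ K] :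
    ∃ P ∈ primesOver (span {((23 : ℕ) : ℤ)}) (𝓞 K), Submodule.IsPrincipal P := by
  have : Fact (Nat.Prime 11) := ⟨by norm_num⟩
  have : Fact (Nat.Prime 23) := ⟨by norm_num⟩
  have hζ := IsCyclotomicExtension.zeta_spec 11 ℚ K
  set z := hζ.toInteger with hz
  have h : 1 + z + z ^ 2 + z ^ 3 + z ^ 4 + z ^ 5 + z ^ 6 + z ^ 7 + z ^ 8 + z ^ 9 + z ^ 10 = 0 := by
    have := hζ.toInteger_isPrimitiveRoot.geom_sum_eq_zero (by norm_num)
    simpa [Finset.sum_range_succ] using this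
  refine exists_isPrincipal_primesOver (p := 11) (q := 23) (by norm_num) hζ (X - C 4)
    (monic_X_sub_C 4) ?_ ?_ (1 + z + z ^ 3)
    (-2 - 14 * z - 17 * z ^ 2 - 12 * z ^ 3 - 5 * z ^ 4 - 9 * z ^ 5 - 10 * z ^ 6 - 16 * z ^ 7
      - 6 * z ^ 8 - 15 * z ^ 9)
    (1 + 3 * z + 3 * z ^ 2 + 2 * z ^ 3 + z ^ 4 + 2 * z ^ 5 + 2 * z ^ 6 + 3 * z ^ 7 + z ^ 8
      + 3 * z ^ 9) 3 (17 + 4 * z + z ^ 2) ?_ ?_ ?_
  · rw [Polynomial.map_sub, map_X, map_C]
    exact irreducible_X_sub_C _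
  · rw [Polynomial.map_sub, map_X, map_C, dvd_iff_isRoot, IsRoot, cyclotomic_prime]
    simp only [eval_finsetSum, eval_pow, eval_X, eq_intCast]
    decide +revert
  · push_cast
    linear_combination (-25 + 9 * z - 15 * z ^ 2) * h
  · simp only [map_sub, aeval_X, aeval_C]
    simp only [← hz, eq_intCast, Int.cast_ofNat]
    linear_combination (5 - 2 * z + 3 * z ^ 2) * h
  · simp only [map_sub, aeval_X, aeval_C]
    simp only [← hz, eq_intCast, Int.cast_ofNat]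
    push_cast
    ring

end PID11

theorem pid_eleven {K : Type*} [Field K] [NumberField K] [IsCyclotomicExtension {11} ℚ K] :
    IsPrincipalIdealRing (𝓞 K) := by
  have : Fact (Nat.Prime 11) := ⟨by norm_num⟩
  have : IsGalois ℚ K := IsCyclotomicExtension.isGalois {11} ℚ K
  have hM := PID11.floor_minkowski (K := K)
  apply RingOfIntegers.isPrincipalIdealRing_of_isPrincipal_of_lt_or_isPrincipal_of_mem_primesOver_of_mem_Icc
  intro q hq hqp
  have : Fact q.Prime := ⟨hqp⟩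
  rw [Finset.mem_Icc] at hq
  rcases PID11.check q (Finset.mem_Icc.mpr ⟨hq.1, hq.2.trans hM⟩) hqp with rfl | rfl | hcheck
  · obtain ⟨P, hP, hprin⟩ := PIDCommon.exists_isPrincipal_ramified (p := 11) (K := K)
    exact ⟨P, hP, Or.inr hprin⟩
  · obtain ⟨P, hP, hprin⟩ := PID11.principal_23 (K := K)
    exact ⟨P, hP, Or.inr hprin⟩
  · by_cases hq11 : q = 11
    · subst hq11
      obtain ⟨P, hP, hprin⟩ := PIDCommon.exists_isPrincipal_ramified (p := 11) (K := K)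
      exact ⟨P, hP, Or.inr hprin⟩
    obtain ⟨P, hP, hlt⟩ := PIDCommon.exists_lt_pow_inertiaDeg (p := 11) (q := q) hq11 (K := K) 58
      (fun j hj hle => by
        refine hcheck j (Finset.mem_Icc.mpr ⟨hj, ?_⟩) hle
        by_contra hcon
        have h7 : 7 ≤ j := by omega
        have : 2 ^ 7 ≤ q ^ j :=
          (Nat.pow_le_pow_left hqp.two_le 7).trans (Nat.pow_le_pow_right hqp.pos h7)
        omega)
    exact ⟨P, hP, Or.inl (lt_of_le_of_lt hM hlt)⟩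

end Fermat.Agent.Kummer
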