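import Fermat.Agent.Kummer.PIDCommon
import Fermat.Agent.Kummer.PrincipalGen

/-!
# T-KUMMER: `ℤ[ζ₁₃]` is a PID
-/

set_option autoImplicit false

namespace Fermat.Agent.Kummer

open NumberField Polynomial Ideal Module InfinitePlace
open scoped Real Nat

namespace PID13

theorem floor_minkowski {K : Type*} [Field K] [NumberField K] [IsCyclotomicExtension {13} ℚ K] :
    ⌊(4 / π) ^ nrComplexPlaces K *
      ((finrank ℚ K)! / (finrank ℚ K) ^ (finrank ℚ K) * √|discr K|)⌋₊ ≤ 306 := by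
  have : Fact (Nat.Prime 13) := ⟨by norm_num⟩
  apply PIDCommon.floor_le_of_lt
  rw [PIDCommon.minkowski_eq (p := 13)]
  have h1 : (4 / π) ^ ((13 - 1) / 2) ≤ (4 / 3.1415 : ℝ) ^ 6 := by
    have h0 : (13 - 1) / 2 = 6 := by norm_num
    rw [h0]
    have := Real.pi_gt_d4
    gcongr
  have h2 : √(((13 : ℕ) : ℝ) ^ (13 - 2)) ≤ 1338715.95 := by
    rw [Real.sqrt_le_iff]
    constructor <;> norm_num
  have h3 : (((13 - 1)! : ℕ) : ℝ) / ((13 - 1 : ℕ) : ℝ) ^ (13 - 1) = 479001600 / 12 ^ 12 := by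
    norm_num [Nat.factorial]
  rw [h3]
  calc (4 / π) ^ ((13 - 1) / 2) * (479001600 / 12 ^ 12 * √(((13 : ℕ) : ℝ) ^ (13 - 2)))
      ≤ (4 / 3.1415 : ℝ) ^ 6 * (479001600 / 12 ^ 12 * 1338715.95) := by gcongr
    _ < ((306 : ℕ) : ℝ) + 1 := by norm_num

set_option maxRecDepth 100000 in
theorem check : ∀ q ∈ Finset.Icc (1 : ℕ) 306, q.Prime → q = 13 ∨ q = 3 ∨ q = 53 ∨ q = 79 ∨
    q = 131 ∨ q = 157 ∨
    ∀ j ∈ Finset.Icc (1 : ℕ) 8, q ^ j ≤ 306 → ((q : ℕ) : ZMod 13) ^ j ≠ 1 := by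
  decide

theorem geom {K : Type*} [Field K] [NumberField K] [IsCyclotomicExtension {13} ℚ K] {ζ : K}
    (hζ : IsPrimitiveRoot ζ 13) :
    1 + hζ.toInteger + hζ.toInteger ^ 2 + hζ.toInteger ^ 3 + hζ.toInteger ^ 4 + hζ.toInteger ^ 5
      + hζ.toInteger ^ 6 + hζ.toInteger ^ 7 + hζ.toInteger ^ 8 + hζ.toInteger ^ 9
      + hζ.toInteger ^ 10 + hζ.toInteger ^ 11 + hζ.toInteger ^ 12 = 0 := by
  have := hζ.toInteger_isPrimitiveRoot.geom_sum_eq_zero (by norm_num)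
  simpa [Finset.sum_range_succ] using this

theorem principal_53 {K : Type*} [Field K] [NumberField K] [IsCyclotomicExtension {13} ℚ K] :
    ∃ P ∈ primesOver (span {((53 : ℕ) : ℤ)}) (𝓞 K), Submodule.IsPrincipal P := by
  have : Fact (Nat.Prime 13) := ⟨by norm_num⟩
  have : Fact (Nat.Prime 53) := ⟨by norm_num⟩
  have hζ := IsCyclotomicExtension.zeta_spec 13 ℚ K
  have h := geom hζ
  set z := hζ.toInteger with hz
  refine exists_isPrincipal_primesOver (p := 13) (q := 53) (by norm_num) hζ (X - C (-17))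
    (monic_X_sub_C (-17)) ?_ ?_ (1 + z + z ^ 3)
    (1 - 24 * z - 35 * z ^ 2 - 25 * z ^ 3 - 10 * z ^ 4 - 14 * z ^ 5 - 20 * z ^ 6 - 29 * z ^ 7 - 16 * z ^ 8 - 23 * z ^ 9 - 7 * z ^ 10 - 36 * z ^ 11)
    (1 - 7 * z - 11 * z ^ 2 - 8 * z ^ 3 - 3 * z ^ 4 - 4 * z ^ 5 - 6 * z ^ 6 - 9 * z ^ 7 - 5 * z ^ 8 - 7 * z ^ 9 - 2 * z ^ 10 - 11 * z ^ 11)
    (-93) (290 - 17 * z + z ^ 2) ?_ ?_ ?_
  · rw [Polynomial.map_sub, map_X, map_C]
    exact irreducible_X_sub_C _
  · rw [Polynomial.map_sub, map_X, map_C, dvd_iff_isRoot, IsRoot, cyclotomic_prime]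
    simp only [eval_finsetSum, eval_pow, eval_X, eq_intCast]
    decide +revert
  · push_cast
    linear_combination (-52 + 29 * z - 36 * z ^ 2) * h
  · simp only [map_sub, aeval_X, aeval_C]
    simp only [← hz, eq_intCast, Int.cast_ofNat, Int.cast_neg]
    linear_combination (-16 + 9 * z - 11 * z ^ 2) * h
  · simp only [map_sub, aeval_X, aeval_C]
    simp only [← hz, eq_intCast, Int.cast_ofNat, Int.cast_neg]
    push_cast
    ring

theorem principal_79 {K : Type*} [Field K] [NumberField K] [IsCyclotomicExtension {13} ℚ K] :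
    ∃ P ∈ primesOver (span {((79 : ℕ) : ℤ)}) (𝓞 K), Submodule.IsPrincipal P := by
  have : Fact (Nat.Prime 13) := ⟨by norm_num⟩
  have : Fact (Nat.Prime 79) := ⟨by norm_num⟩
  have hζ := IsCyclotomicExtension.zeta_spec 13 ℚ K
  have h := geom hζ
  set z := hζ.toInteger with hz
  refine exists_isPrincipal_primesOver (p := 13) (q := 79) (by norm_num) hζ (X - C (-15))
    (monic_X_sub_C (-15)) ?_ ?_ (1 + z - z ^ 4)
    (24 - 25 * z - 27 * z ^ 2 + 10 * z ^ 3 - 3 * z ^ 4 - 39 * z ^ 5 - 5 * z ^ 6 - 2 * z ^ 7 - 18 * z ^ 8 - 38 * z ^ 9 + 16 * z ^ 10 - 35 * z ^ 11)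
    (5 - 4 * z - 5 * z ^ 2 + 2 * z ^ 3 - 7 * z ^ 5 - z ^ 6 - 3 * z ^ 8 - 7 * z ^ 9 + 3 * z ^ 10 - 6 * z ^ 11)
    (-641) (3376 - 225 * z + 15 * z ^ 2 - z ^ 3) ?_ ?_ ?_
  · rw [Polynomial.map_sub, map_X, map_C]
    exact irreducible_X_sub_C _
  · rw [Polynomial.map_sub, map_X, map_C, dvd_iff_isRoot, IsRoot, cyclotomic_prime]
    simp only [eval_finsetSum, eval_pow, eval_X, eq_intCast]
    decide +revert
  · push_cast
    linear_combination (-55 + 54 * z - 51 * z ^ 2 + 35 * z ^ 3) * h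
  · simp only [map_sub, aeval_X, aeval_C]
    simp only [← hz, eq_intCast, Int.cast_ofNat, Int.cast_neg]
    linear_combination (-10 + 10 * z - 9 * z ^ 2 + 6 * z ^ 3) * h
  · simp only [map_sub, aeval_X, aeval_C]
    simp only [← hz, eq_intCast, Int.cast_ofNat, Int.cast_neg]
    push_cast
    ring

theorem principal_131 {K : Type*} [Field K] [NumberField K] [IsCyclotomicExtension {13} ℚ K] :
    ∃ P ∈ primesOver (span {((131 : ℕ) : ℤ)}) (𝓞 K), Submodule.IsPrincipal P := by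
  have : Fact (Nat.Prime 13) := ⟨by norm_num⟩
  have : Fact (Nat.Prime 131) := ⟨by norm_num⟩
  have hζ := IsCyclotomicExtension.zeta_spec 13 ℚ K
  have h := geom hζ
  set z := hζ.toInteger with hz
  refine exists_isPrincipal_primesOver (p := 13) (q := 131) (by norm_num) hζ (X - C (-51))
    (monic_X_sub_C (-51)) ?_ ?_ (1 - z - z ^ 3)
    (111 + 78 * z + 17 * z ^ 2 + 67 * z ^ 3 + 84 * z ^ 4 + 40 * z ^ 5 + 46 * z ^ 6 + 69 * z ^ 7 + 48 * z ^ 8 + 33 * z ^ 9 + 41 * z ^ 10 + 28 * z ^ 11)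
    (43 + 31 * z + 7 * z ^ 2 + 26 * z ^ 3 + 33 * z ^ 4 + 16 * z ^ 5 + 18 * z ^ 6 + 27 * z ^ 7 + 19 * z ^ 8 + 13 * z ^ 9 + 16 * z ^ 10 + 11 * z ^ 11)
    (1013) (-2602 + 51 * z - z ^ 2) ?_ ?_ ?_
  · rw [Polynomial.map_sub, map_X, map_C]
    exact irreducible_X_sub_C _
  · rw [Polynomial.map_sub, map_X, map_C, dvd_iff_isRoot, IsRoot, cyclotomic_prime]
    simp only [eval_finsetSum, eval_pow, eval_X, eq_intCast]
    decide +revert
  · push_cast
    linear_combination (-20 - 13 * z - 28 * z ^ 2) * h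
  · simp only [map_sub, aeval_X, aeval_C]
    simp only [← hz, eq_intCast, Int.cast_ofNat, Int.cast_neg]
    linear_combination (-8 - 5 * z - 11 * z ^ 2) * h
  · simp only [map_sub, aeval_X, aeval_C]
    simp only [← hz, eq_intCast, Int.cast_ofNat, Int.cast_neg]
    push_cast
    ring

set_option maxRecDepth 100000 in
theorem principal_157 {K : Type*} [Field K] [NumberField K] [IsCyclotomicExtension {13} ℚ K] :
    ∃ P ∈ primesOver (span {((157 : ℕ) : ℤ)}) (𝓞 K), Submodule.IsPrincipal P := by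
  have : Fact (Nat.Prime 13) := ⟨by norm_num⟩
  have : Fact (Nat.Prime 157) := ⟨by norm_num⟩
  have hζ := IsCyclotomicExtension.zeta_spec 13 ℚ K
  have h := geom hζ
  set z := hζ.toInteger with hz
  refine exists_isPrincipal_primesOver (p := 13) (q := 157) (by norm_num) hζ (X - C 75)
    (monic_X_sub_C 75) ?_ ?_ (1 - z + z ^ 2 + z ^ 4)
    (89 + 86 * z + 42 * z ^ 2 + 77 * z ^ 3 + 67 * z ^ 4 + 25 * z ^ 5 + 37 * z ^ 6 + 56 * z ^ 7 + 73 * z ^ 8 + 113 * z ^ 9 + 124 * z ^ 10 + 76 * z ^ 11)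
    (-43 - 41 * z - 20 * z ^ 2 - 37 * z ^ 3 - 32 * z ^ 4 - 12 * z ^ 5 - 18 * z ^ 6 - 27 * z ^ 7 - 35 * z ^ 8 - 54 * z ^ 9 - 59 * z ^ 10 - 36 * z ^ 11)
    (201568) (421949 + 5626 * z + 75 * z ^ 2 + z ^ 3) ?_ ?_ ?_
  · rw [Polynomial.map_sub, map_X, map_C]
    exact irreducible_X_sub_C _
  · rw [Polynomial.map_sub, map_X, map_C, dvd_iff_isRoot, IsRoot, cyclotomic_prime]
    simp only [eval_finsetSum, eval_pow, eval_X, eq_intCast]
    decide +revert
  · push_cast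
    linear_combination (-68 + 65 * z + 48 * z ^ 2 + 76 * z ^ 3) * h
  · simp only [map_sub, aeval_X, aeval_C]
    simp only [← hz, eq_intCast, Int.cast_ofNat, Int.cast_neg]
    linear_combination (32 - 31 * z - 23 * z ^ 2 - 36 * z ^ 3) * h
  · simp only [map_sub, aeval_X, aeval_C]
    simp only [← hz, eq_intCast, Int.cast_ofNat, Int.cast_neg]
    push_cast
    ring

theorem noroot3 : ∀ x : ZMod 3, ¬ x ^ 3 - x - 1 = 0 := by decide

theorem principal_3 {K : Type*} [Field K] [NumberField K] [IsCyclotomicExtension {13} ℚ K] :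
    ∃ P ∈ primesOver (span {((3 : ℕ) : ℤ)}) (𝓞 K), Submodule.IsPrincipal P := by
  have : Fact (Nat.Prime 13) := ⟨by norm_num⟩
  have : Fact (Nat.Prime 3) := ⟨by norm_num⟩
  have hζ := IsCyclotomicExtension.zeta_spec 13 ℚ K
  have h := geom hζ
  set z := hζ.toInteger with hz
  have hmap : (X ^ 3 - X - 1 : ℤ[X]).map (Int.castRingHom (ZMod 3)) = X ^ 3 - X - 1 := by
    simp
  have hmonic : (X ^ 3 - X - 1 : ℤ[X]).Monic := by monicity!
  have hmonic' : (X ^ 3 - X - 1 : (ZMod 3)[X]).Monic := by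
    rw [← hmap]; exact hmonic.map _
  have hdeg : (X ^ 3 - X - 1 : (ZMod 3)[X]).natDegree = 3 := by compute_degree!
  refine exists_isPrincipal_primesOver (p := 13) (q := 3) (by norm_num) hζ (X ^ 3 - X - 1)
    hmonic ?_ ?_ (z ^ 3 - z - 1)
    (1 + z ^ 2 + z ^ 3 + 2 * z ^ 5 + z ^ 7 + 2 * z ^ 8 - z ^ 9 + 3 * z ^ 10)
    1 0 1 ?_ ?_ ?_
  · rw [hmap]
    apply Polynomial.irreducible_of_degree_le_three_of_not_isRoot
    · rw [hdeg]; simp
    · intro x
      simp only [IsRoot, eval_sub, eval_pow, eval_X, eval_one]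
      exact noroot3 x
  · rw [hmap, cyclotomic_prime]
    have h3 : (3 : (ZMod 3)[X]) = 0 := by
      have : ((3 : ℕ) : (ZMod 3)[X]) = 0 := CharP.cast_eq_zero _ 3
      simpa using this
    refine ⟨20 + 15 * X + 11 * X ^ 2 + 8 * X ^ 3 + 6 * X ^ 4 + 4 * X ^ 5 + 3 * X ^ 6 + 2 * X ^ 7 + X ^ 8 + X ^ 9, ?_⟩
    simp only [Finset.sum_range_succ, Finset.sum_range_zero]
    linear_combination (7 + 12 * X + 9 * X ^ 2) * h3
  · push_cast
    linear_combination (-4 + 3 * z) * h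
  · simp only [map_sub, map_pow, map_one, aeval_X]
    simp only [← hz]
    ring
  · simp only [map_sub, map_pow, map_one, aeval_X]
    simp only [← hz]
    ring

end PID13

theorem pid_thirteen {K : Type*} [Field K] [NumberField K] [IsCyclotomicExtension {13} ℚ K] :
    IsPrincipalIdealRing (𝓞 K) := by
  have : Fact (Nat.Prime 13) := ⟨by norm_num⟩
  have : IsGalois ℚ K := IsCyclotomicExtension.isGalois {13} ℚ K
  have hM := PID13.floor_minkowski (K := K)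
  apply RingOfIntegers.isPrincipalIdealRing_of_isPrincipal_of_lt_or_isPrincipal_of_mem_primesOver_of_mem_Icc
  intro q hq hqp
  have : Fact q.Prime := ⟨hqp⟩
  rw [Finset.mem_Icc] at hq
  rcases PID13.check q (Finset.mem_Icc.mpr ⟨hq.1, hq.2.trans hM⟩) hqp with
    rfl | rfl | rfl | rfl | rfl | rfl | hcheck
  · obtain ⟨P, hP, hprin⟩ := PIDCommon.exists_isPrincipal_ramified (p := 13) (K := K)
    exact ⟨P, hP, Or.inr hprin⟩
  · obtain ⟨P, hP, hprin⟩ := PID13.principal_3 (K := K)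
    exact ⟨P, hP, Or.inr hprin⟩
  · obtain ⟨P, hP, hprin⟩ := PID13.principal_53 (K := K)
    exact ⟨P, hP, Or.inr hprin⟩
  · obtain ⟨P, hP, hprin⟩ := PID13.principal_79 (K := K)
    exact ⟨P, hP, Or.inr hprin⟩
  · obtain ⟨P, hP, hprin⟩ := PID13.principal_131 (K := K)
    exact ⟨P, hP, Or.inr hprin⟩
  · obtain ⟨P, hP, hprin⟩ := PID13.principal_157 (K := K)
    exact ⟨P, hP, Or.inr hprin⟩
  · by_cases hq13 : q = 13
    · subst hq13
      obtain ⟨P, hP, hprin⟩ := PIDCommon.exists_isPrincipal_ramified (p := 13) (K := K)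
      exact ⟨P, hP, Or.inr hprin⟩
    obtain ⟨P, hP, hlt⟩ := PIDCommon.exists_lt_pow_inertiaDeg (p := 13) (q := q) hq13 (K := K) 306
      (fun j hj hle => by
        refine hcheck j (Finset.mem_Icc.mpr ⟨hj, ?_⟩) hle
        by_contra hcon
        have h9 : 9 ≤ j := by omega
        have : 2 ^ 9 ≤ q ^ j :=
          (Nat.pow_le_pow_left hqp.two_le 9).trans (Nat.pow_le_pow_right hqp.pos h9)
        omega)
    exact ⟨P, hP, Or.inl (lt_of_le_of_lt hM hlt)⟩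

end Fermat.Agent.Kummer
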