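import Fermat.Agent.Kummer.PrincipalGen

/-!
# T-KUMMER: `ℤ[ζ₇]` is a PID
-/

set_option autoImplicit false

namespace Fermat.Agent.Kummer

open NumberField Polynomial

theorem pid_seven {K : Type*} [Field K] [NumberField K] [IsCyclotomicExtension {7} ℚ K] :
    IsPrincipalIdealRing (𝓞 K) := by
  have : Fact (Nat.Prime 7) := ⟨by norm_num⟩
  refine pid_of_bound 7 K 7 ?_ ?_
  · refine mink_bound_aux (s := 130) (by simp [Nat.factorial]) (by norm_num) (by norm_num) ?_
    norm_num [Nat.factorial]
  · intro q hq _ j hj h1 h2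
    exfalso
    have h3 : 1 < q ^ j := Nat.one_lt_pow hj.ne' hq.one_lt
    omega

end Fermat.Agent.Kummer
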