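import Mathlib

/-!
# T-KUMMER: common lemmas for the PID proofs (`p = 11, 13`)
-/

set_option autoImplicit false

namespace Fermat.Agent.Kummer.PIDCommon

open NumberField Polynomial Ideal Module InfinitePlace
open scoped Real Nat

/-- unramified primes whose residue degree is too large. -/
theorem exists_lt_pow_inertiaDeg {p q : ℕ} [Fact p.Prime] [Fact q.Prime] (hpq : q ≠ p)
    {K : Type*} [Field K] [NumberField K] [IsCyclotomicExtension {p} ℚ K] (B : ℕ)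
    (h : ∀ j, 0 < j → q ^ j ≤ B → ((q : ZMod p)) ^ j ≠ 1) :
    ∃ P ∈ primesOver (span {(q : ℤ)}) (𝓞 K), B < q ^ P.inertiaDeg ℤ := by
  have hp : p.Prime := Fact.out
  have hq : q.Prime := Fact.out
  have : NeZero p := ⟨hp.ne_zero⟩
  obtain ⟨⟨P, hP1, hP2⟩⟩ := (span {(q : ℤ)}).nonempty_primesOver (S := 𝓞 K)
  refine ⟨P, ⟨hP1, hP2⟩, ?_⟩
  have hm : ¬ q ∣ p := fun hd => hpq ((Nat.prime_dvd_prime_iff_eq hq hp).mp hd)
  rw [IsCyclotomicExtension.Rat.inertiaDeg_eq_of_not_dvd q K P hm]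
  by_contra hcon
  have hq0 : (q : ZMod p) ≠ 0 := by
    rw [Ne, ZMod.natCast_eq_zero_iff]
    exact fun hd => hpq ((Nat.prime_dvd_prime_iff_eq hp hq).mp hd).symm
  have hfin : IsOfFinOrder (q : ZMod p) :=
    isOfFinOrder_iff_pow_eq_one.mpr ⟨p - 1, by have := hp.two_le; omega,
      ZMod.pow_card_sub_one_eq_one hq0⟩
  exact h _ hfin.orderOf_pos (not_lt.mp hcon) (pow_orderOf_eq_one _)

/-- the ramified prime is principal. -/
theorem exists_isPrincipal_ramified {p : ℕ} [Fact p.Prime]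
    {K : Type*} [Field K] [NumberField K] [IsCyclotomicExtension {p} ℚ K] :
    ∃ P ∈ primesOver (span {(p : ℤ)}) (𝓞 K), Submodule.IsPrincipal P := by
  have hp : p.Prime := Fact.out
  have : NeZero p := ⟨hp.ne_zero⟩
  have hζ := IsCyclotomicExtension.zeta_spec p ℚ K
  obtain ⟨⟨P, hP1, hP2⟩⟩ := (span {(p : ℤ)}).nonempty_primesOver (S := 𝓞 K)
  refine ⟨P, ⟨hP1, hP2⟩, ?_⟩
  rw [IsCyclotomicExtension.Rat.eq_span_zeta_sub_one_of_liesOver' p K hζ P]
  exact ⟨⟨_, rfl⟩⟩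

/-- The Minkowski bound of `ℚ(ζ_p)`. -/
theorem minkowski_eq {p : ℕ} [Fact p.Prime]
    {K : Type*} [Field K] [NumberField K] [IsCyclotomicExtension {p} ℚ K] :
    (4 / π) ^ nrComplexPlaces K * ((finrank ℚ K)! / (finrank ℚ K) ^ (finrank ℚ K) * √|discr K|) =
      (4 / π) ^ ((p - 1) / 2) * (((p - 1)! : ℕ) / ((p - 1 : ℕ) : ℝ) ^ (p - 1) *
        √((p : ℝ) ^ (p - 2))) := by
  have hp : p.Prime := Fact.out
  have : NeZero p := ⟨hp.ne_zero⟩
  rw [IsCyclotomicExtension.Rat.discr_prime p K, IsCyclotomicExtension.finrank (n := p) K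
    (cyclotomic.irreducible_rat hp.pos),
    IsCyclotomicExtension.Rat.nrComplexPlaces_eq_totient_div_two p, Nat.totient_prime hp]
  congr 3
  push_cast
  rw [abs_mul, abs_pow, abs_neg, abs_one, one_pow, one_mul, abs_of_nonneg (by positivity)]

theorem floor_le_of_lt {x : ℝ} {B : ℕ} (h : x < (B : ℝ) + 1) : ⌊x⌋₊ ≤ B := by
  have h' : x < ((B + 1 : ℕ) : ℝ) := by push_cast; exact h
  exact Nat.lt_succ_iff.mp ((Nat.floor_lt' (Nat.succ_ne_zero B)).mpr h')

end Fermat.Agent.Kummer.PIDCommon
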