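import Fermat.Agent.Kummer.Defs

/-!
# T-KUMMER skeleton: exact interface statements (all `sorry`; each task proves one block in its
own file).  DO NOT import this file from finished work.
-/

set_option autoImplicit false

namespace Fermat.Agent.Kummer.Skeleton

open NumberField Polynomial Fermat.Agent.Kummer

/-! ## Task SG : Sophie Germain, Case I -/

theorem sophie_germain {p q : ℕ} (hp : p.Prime) (hp2 : p ≠ 2) (hq : q.Prime)
    (h1 : ∀ x y z : ZMod q, x ^ p + y ^ p + z ^ p = 0 → x = 0 ∨ y = 0 ∨ z = 0)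
    (h2 : ∀ x : ZMod q, x ^ p ≠ (p : ZMod q))
    (a b c : ℤ) (hab : IsCoprime a b) (hpabc : ¬ (p : ℤ) ∣ a * b * c) :
    a ^ p + b ^ p ≠ c ^ p := by
  sorry

theorem caseI {p : ℕ} (hp : p = 5 ∨ p = 7 ∨ p = 11 ∨ p = 13)
    (a b c : ℤ) (hab : IsCoprime a b) (hpabc : ¬ (p : ℤ) ∣ a * b * c) :
    a ^ p + b ^ p ≠ c ^ p := by
  sorry

/-! ## Task C2A : arithmetic lemmas in `𝓞 K` -/

section C2A

variable {p : ℕ} [Fact p.Prime] {K : Type*} [Field K] [NumberField K]
  [IsCyclotomicExtension {p} ℚ K] {ζ : K} (hζ : IsPrimitiveRoot ζ p)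

include hζ in
theorem exists_int_pow_sub_dvd (α : 𝓞 K) : ∃ n : ℤ, (p : 𝓞 K) ∣ α ^ p - (n : 𝓞 K) := by
  sorry

theorem exists_int_sub_dvd (α : 𝓞 K) : ∃ n : ℤ, (hζ.toInteger - 1) ∣ α - (n : 𝓞 K) := by
  sorry

theorem associated_pow_sub_pow (a b : ℕ) (ha : a < p) (hb : b < p) (hab : a ≠ b) :
    Associated (hζ.toInteger ^ a - hζ.toInteger ^ b) (hζ.toInteger - 1) := by
  sorry

theorem exists_sq_dvd (x y : 𝓞 K) (hy : ¬ (hζ.toInteger - 1) ∣ y)
    (hxy : (hζ.toInteger - 1) ∣ x + y) :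
    ∃ a < p, (hζ.toInteger - 1) ^ 2 ∣ x + hζ.toInteger ^ a * y := by
  sorry

end C2A

/-! ## Task C2 : Case II descent in a PID -/

theorem caseII_core {p : ℕ} [Fact p.Prime] (hp2 : p ≠ 2) {K : Type*} [Field K] [NumberField K]
    [IsCyclotomicExtension {p} ℚ K] [IsPrincipalIdealRing (𝓞 K)] {ζ : K}
    (hζ : IsPrimitiveRoot ζ p) (hK : KummerLemma p K) (m : ℕ) (hm : 1 ≤ m)
    (x y z : 𝓞 K) (ε : (𝓞 K)ˣ) (hxy : IsCoprime x y) (hz : ¬ (hζ.toInteger - 1) ∣ z) :
    x ^ p + y ^ p ≠ ε * ((hζ.toInteger - 1) ^ m * z) ^ p := by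
  sorry

/-! ## Task C2W : from integers to `caseII_core`, and assembly of FLT for `p` -/

theorem caseII {p : ℕ} [Fact p.Prime] (hp2 : p ≠ 2) {K : Type*} [Field K] [NumberField K]
    [IsCyclotomicExtension {p} ℚ K] [IsPrincipalIdealRing (𝓞 K)] (hK : KummerLemma p K)
    (a b c : ℤ) (hab : IsCoprime a b) (h0 : a * b * c ≠ 0) (hpabc : (p : ℤ) ∣ a * b * c) :
    a ^ p + b ^ p ≠ c ^ p := by
  sorry

/-! ## Task KL1 : abstract linear algebra -/

theorem exists_pow_eq_of_map_eq_one {E V : Type*} [CommGroup E] {p n : ℕ} [Fact p.Prime]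
    [AddCommGroup V] [Module (ZMod p) V]
    (g : Fin n → E) (hg : ∀ u : E, ∃ e : Fin n → ℤ, u = ∏ i, g i ^ e i)
    (φ : E →* Multiplicative V) (w : Fin n → E)
    (hw : LinearIndependent (ZMod p) (fun i => Multiplicative.toAdd (φ (w i))))
    (u : E) (hu : φ u = 1) : ∃ v : E, u = v ^ p := by
  sorry

/-! ## Task KL2 : the unit group is generated by `(p-1)/2` elements (Dirichlet) -/

theorem units_generated {p : ℕ} [Fact p.Prime] (hp2 : p ≠ 2) {K : Type*} [Field K] [NumberField K]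
    [IsCyclotomicExtension {p} ℚ K] :
    ∃ g : Fin ((p - 1) / 2) → (𝓞 K)ˣ, ∀ u : (𝓞 K)ˣ, ∃ e : Fin ((p - 1) / 2) → ℤ,
      u = ∏ i, g i ^ e i := by
  sorry

/-! ## Task KL3 : logarithmic derivative -/

/-- There is a homomorphism `dlog` from the units to the additive group of `𝔽_p[X]/(X^(p-2))`,
killing the units congruent to an integer mod `p`, and computable on units given as polynomials
in `λ = ζ - 1`. -/
theorem exists_dlog {p : ℕ} [Fact p.Prime] (hp2 : p ≠ 2) {K : Type*} [Field K] [NumberField K]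
    [IsCyclotomicExtension {p} ℚ K] {ζ : K} (hζ : IsPrimitiveRoot ζ p) :
    ∃ φ : (𝓞 K)ˣ →* Multiplicative (Trunc p (p - 2)),
      (∀ u : (𝓞 K)ˣ, (∃ n : ℤ, (p : 𝓞 K) ∣ (u : 𝓞 K) - (n : 𝓞 K)) → φ u = 1) ∧
      (∀ (u : (𝓞 K)ˣ) (G : ℤ[X]) (W : (ZMod p)[X]),
        (u : 𝓞 K) = aeval (hζ.toInteger - 1) G →
        (X : (ZMod p)[X]) ^ (p - 2) ∣
          W * G.map (Int.castRingHom (ZMod p)) - derivative (G.map (Int.castRingHom (ZMod p))) →
        Multiplicative.toAdd (φ u) = Ideal.Quotient.mk _ W) := by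
  sorry

/-! ## Task KLC : Kummer's lemma from a certificate -/

theorem kummerLemma_of_cert {p : ℕ} [Fact p.Prime] (hp2 : p ≠ 2) {K : Type*} [Field K]
    [NumberField K] [IsCyclotomicExtension {p} ℚ K] {ζ : K} (hζ : IsPrimitiveRoot ζ p)
    (G : Fin ((p - 1) / 2) → ℤ[X]) (W : Fin ((p - 1) / 2) → (ZMod p)[X])
    (hG : ∀ i, IsUnit (aeval (hζ.toInteger - 1) (G i) : 𝓞 K))
    (hW : ∀ i, (X : (ZMod p)[X]) ^ (p - 2) ∣
      W i * (G i).map (Int.castRingHom (ZMod p)) -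
        derivative ((G i).map (Int.castRingHom (ZMod p))))
    (hind : LinearIndependent (ZMod p) (fun i => fun j : Fin (p - 2) => (W i).coeff j)) :
    KummerLemma p K := by
  sorry

/-! ## Task KL4 : the certificates -/

theorem kummerLemma_five {K : Type*} [Field K] [NumberField K] [IsCyclotomicExtension {5} ℚ K] :
    KummerLemma 5 K := by
  sorry

theorem kummerLemma_seven {K : Type*} [Field K] [NumberField K] [IsCyclotomicExtension {7} ℚ K] :
    KummerLemma 7 K := by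
  sorry

theorem kummerLemma_eleven {K : Type*} [Field K] [NumberField K]
    [IsCyclotomicExtension {11} ℚ K] : KummerLemma 11 K := by
  sorry

theorem kummerLemma_thirteen {K : Type*} [Field K] [NumberField K]
    [IsCyclotomicExtension {13} ℚ K] : KummerLemma 13 K := by
  sorry

/-! ## Task PG : principal prime from explicit generator -/

open Ideal in
theorem exists_isPrincipal_primesOver {p q : ℕ} [Fact p.Prime] [Fact q.Prime] (hpq : p ≠ q)
    {K : Type*} [Field K] [NumberField K] [IsCyclotomicExtension {p} ℚ K] {ζ : K}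
    (hζ : IsPrimitiveRoot ζ p) (g : ℤ[X]) (hgm : g.Monic)
    (hirr : Irreducible (g.map (Int.castRingHom (ZMod q))))
    (hdvd : g.map (Int.castRingHom (ZMod q)) ∣ cyclotomic p (ZMod q))
    (α β γ u v : 𝓞 K) (h1 : α * β = (q : 𝓞 K)) (h2 : α * γ = aeval hζ.toInteger g)
    (h3 : α = (q : 𝓞 K) * u + aeval hζ.toInteger g * v) :
    ∃ P ∈ primesOver (span {(q : ℤ)}) (𝓞 K), Submodule.IsPrincipal P := by
  sorry

/-! ## Tasks PID7, PID11, PID13 -/

theorem pid_seven {K : Type*} [Field K] [NumberField K] [IsCyclotomicExtension {7} ℚ K] :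
    IsPrincipalIdealRing (𝓞 K) := by
  sorry

theorem pid_eleven {K : Type*} [Field K] [NumberField K] [IsCyclotomicExtension {11} ℚ K] :
    IsPrincipalIdealRing (𝓞 K) := by
  sorry

theorem pid_thirteen {K : Type*} [Field K] [NumberField K] [IsCyclotomicExtension {13} ℚ K] :
    IsPrincipalIdealRing (𝓞 K) := by
  sorry

/-! ## Final -/

theorem flt_small {p : ℕ} (hp : p = 5 ∨ p = 7 ∨ p = 11 ∨ p = 13)
    (a b c : ℤ) (ha : a ≠ 0) (hb : b ≠ 0) (hc : c ≠ 0) (hab : IsCoprime a b) :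
    a ^ p + b ^ p ≠ c ^ p := by
  sorry

end Fermat.Agent.Kummer.Skeleton
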